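import Fermat.Agent.S14.FirstIneq.OrdRel

/-!
# S14 / FirstIneq / Above : counting the primes of `N` above a finite set of primes of `F`
(`N/F` Galois of prime degree `p`).  Statements FROZEN (helper12).
-/

set_option autoImplicit false
set_option linter.unusedSectionVars false

namespace Fermat.Agent.S14.FirstIneq

open NumberField IsDedekindDomain UniqueFactorizationMonoid
open scoped Pointwise

universe u v

variable {p : ℕ} [Fact p.Prime]
variable (F : Type u) (N : Type v) [Field F] [NumberField F] [Field N] [NumberField N]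
  [Algebra F N] [IsGalois F N]

/-- The set of primes of `N` lying over the ideal `v` of `F`. -/
def above_aux_P (v : Ideal (𝓞 F)) : Set (Ideal (𝓞 N)) :=
  {Q | Q.IsPrime ∧ Q.LiesOver v}

theorem above_aux_above_eq (S : Set (Ideal (𝓞 F))) :
    above F N S = ⋃ v ∈ S, above_aux_P F N v := by
  ext Q
  rw [Set.mem_iUnion₂]
  constructor
  · rintro ⟨hQ, hS⟩
    exact ⟨_, hS, hQ, ⟨rfl⟩⟩
  · rintro ⟨v, hvS, hQ, hQv⟩
    refine ⟨hQ, ?_⟩
    rw [← hQv.over]
    exact hvS

theorem above_aux_P_finite {v : Ideal (𝓞 F)} (hv : v.IsPrime) (hv0 : v ≠ ⊥) :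
    (above_aux_P F N v).Finite := by
  obtain ⟨Q₀, hQ₀, hQ₀v⟩ := exists_liesOver F N hv hv0
  refine (Set.finite_range (fun τ : N ≃ₐ[F] N => τ • Q₀)).subset ?_
  rintro Q ⟨hQ, hQv⟩
  obtain ⟨τ, hτ⟩ := exists_smul_eq_of_liesOver F N hQ₀ hQ hQ₀v hQv hv0
  exact ⟨τ, hτ⟩

theorem above_aux_P_ncard_of_not_splits (hdeg : Module.finrank F N = p) {v : Ideal (𝓞 F)}
    (hv : v.IsPrime) (hv0 : v ≠ ⊥) (hns : ¬ SplitsCompletely F N v) :
    (above_aux_P F N v).ncard = 1 := by
  obtain ⟨Q₀, hQ₀, hQ₀v⟩ := exists_liesOver F N hv hv0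
  rw [Set.ncard_eq_one]
  refine ⟨Q₀, ?_⟩
  ext Q
  rw [Set.mem_singleton_iff]
  constructor
  · rintro ⟨hQ, hQv⟩
    exact eq_of_liesOver_of_not_splitsCompletely F N hdeg hv0 hns hQ hQ₀ hQv hQ₀v
  · rintro rfl
    exact ⟨hQ₀, hQ₀v⟩

theorem above_aux_P_ncard_of_splits (hdeg : Module.finrank F N = p) {v : Ideal (𝓞 F)}
    (hv : v.IsPrime) (hv0 : v ≠ ⊥) (hs : SplitsCompletely F N v) :
    (above_aux_P F N v).ncard = p := by
  obtain ⟨Q₀, hQ₀, hQ₀v⟩ := exists_liesOver F N hv hv0
  have hrange : above_aux_P F N v = Set.range (fun τ : N ≃ₐ[F] N => τ • Q₀) := by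
    ext Q
    constructor
    · rintro ⟨hQ, hQv⟩
      obtain ⟨τ, hτ⟩ := exists_smul_eq_of_liesOver F N hQ₀ hQ hQ₀v hQv hv0
      exact ⟨τ, hτ⟩
    · rintro ⟨τ, rfl⟩
      exact smul_isPrime_liesOver F N hQ₀ hQ₀v τ
  have hinj : Function.Injective (fun τ : N ≃ₐ[F] N => τ • Q₀) := by
    intro τ τ' h
    have hstab := hs Q₀ hQ₀ hQ₀v
    have hmem : τ'⁻¹ * τ ∈ MulAction.stabilizer (N ≃ₐ[F] N) Q₀ := by
      rw [MulAction.mem_stabilizer_iff, mul_smul]
      simp only at h
      rw [h, inv_smul_smul]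
    rw [hstab, Subgroup.mem_bot] at hmem
    exact (inv_mul_eq_one.mp hmem).symm
  rw [hrange, Set.ncard_range_of_injective hinj, IsGalois.card_aut_eq_finrank, hdeg]

theorem above_aux_P_disjoint {v v' : Ideal (𝓞 F)} (hvv' : v ≠ v') :
    Disjoint (above_aux_P F N v) (above_aux_P F N v') := by
  rw [Set.disjoint_left]
  rintro Q ⟨_, hQv⟩ ⟨_, hQv'⟩
  exact hvv' (hQv.over.trans hQv'.over.symm)

theorem above_isPrime_ne_bot (S : Set (Ideal (𝓞 F))) (hSp : ∀ v ∈ S, v.IsPrime ∧ v ≠ ⊥) :
    ∀ Q ∈ above F N S, Q.IsPrime ∧ Q ≠ ⊥ := by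
  rintro Q ⟨hQ, hQS⟩
  exact ⟨hQ, ne_bot_of_liesOver F N (hSp _ hQS).2 ⟨rfl⟩⟩

theorem above_finite (S : Set (Ideal (𝓞 F))) (hS : S.Finite)
    (hSp : ∀ v ∈ S, v.IsPrime ∧ v ≠ ⊥) : (above F N S).Finite := by
  rw [above_aux_above_eq]
  exact hS.biUnion fun v hv => above_aux_P_finite F N (hSp v hv).1 (hSp v hv).2

theorem above_aux_insert (a : Ideal (𝓞 F)) (S : Set (Ideal (𝓞 F))) :
    above F N (insert a S) = above_aux_P F N a ∪ above F N S := by
  rw [above_aux_above_eq, above_aux_above_eq, Set.biUnion_insert]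

theorem above_aux_ncard (hdeg : Module.finrank F N = p) (q : ℕ) (hq : p = q + 1)
    (S : Finset (Ideal (𝓞 F))) :
    (∀ v ∈ S, v.IsPrime ∧ v ≠ ⊥) →
    ∀ I : Finset (Ideal (𝓞 F)), (∀ v, v ∈ I ↔ v ∈ S ∧ ¬ SplitsCompletely F N v) →
    (above F N (S : Set (Ideal (𝓞 F)))).ncard + q * I.card = p * S.card := by
  classical
  induction S using Finset.induction_on with
  | empty =>
    intro _ I hI
    have hI' : I = ∅ := by
      ext v
      simp [hI v]
    have h0 : above F N ((∅ : Finset (Ideal (𝓞 F))) : Set (Ideal (𝓞 F))) = ∅ := by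
      rw [above_aux_above_eq]
      simp
    rw [h0, hI']
    simp
  | insert a s has ih =>
    intro hSp I hI
    have hsp : ∀ v ∈ s, v.IsPrime ∧ v ≠ ⊥ := fun v hv => hSp v (Finset.mem_insert_of_mem hv)
    have ha := hSp a (Finset.mem_insert_self a s)
    have hfin_s : (above F N (s : Set (Ideal (𝓞 F)))).Finite :=
      above_finite F N _ s.finite_toSet hsp
    have hfin_a : (above_aux_P F N a).Finite := above_aux_P_finite F N ha.1 ha.2
    have hdisj : Disjoint (above_aux_P F N a) (above F N (s : Set (Ideal (𝓞 F)))) := by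
      rw [above_aux_above_eq, Set.disjoint_iUnion₂_right]
      intro v hv
      refine above_aux_P_disjoint F N ?_
      rintro rfl
      exact has (Finset.mem_coe.mp hv)
    have hunion : (above F N ((insert a s : Finset (Ideal (𝓞 F))) : Set (Ideal (𝓞 F)))).ncard
        = (above_aux_P F N a).ncard + (above F N (s : Set (Ideal (𝓞 F)))).ncard := by
      rw [Finset.coe_insert, above_aux_insert, Set.ncard_union_eq hdisj hfin_a hfin_s]
    rw [hunion, Finset.card_insert_of_notMem has]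
    by_cases hsplit : SplitsCompletely F N a
    · -- `a` splits completely: `I` is the set of non-split primes of `s`
      have hI' : ∀ v, v ∈ I ↔ v ∈ s ∧ ¬ SplitsCompletely F N v := by
        intro v
        rw [hI v, Finset.mem_insert]
        constructor
        · rintro ⟨hv | hv, hns⟩
          · exact absurd (hv ▸ hsplit) hns
          · exact ⟨hv, hns⟩
        · rintro ⟨hv, hns⟩
          exact ⟨Or.inr hv, hns⟩
      have := ih hsp I hI'
      rw [above_aux_P_ncard_of_splits F N hdeg ha.1 ha.2 hsplit]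
      rw [hq] at this ⊢
      linarith
    · -- `a` does not split completely
      have haI : a ∈ I := (hI a).2 ⟨Finset.mem_insert_self a s, hsplit⟩
      have hI' : ∀ v, v ∈ I.erase a ↔ v ∈ s ∧ ¬ SplitsCompletely F N v := by
        intro v
        rw [Finset.mem_erase, hI v, Finset.mem_insert]
        constructor
        · rintro ⟨hva, hv | hv, hns⟩
          · exact absurd hv hva
          · exact ⟨hv, hns⟩
        · rintro ⟨hv, hns⟩
          refine ⟨?_, Or.inr hv, hns⟩
          rintro rfl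
          exact has hv
      have := ih hsp (I.erase a) hI'
      have hcard : I.card = (I.erase a).card + 1 := (Finset.card_erase_add_one haI).symm
      rw [above_aux_P_ncard_of_not_splits F N hdeg ha.1 ha.2 hsplit, hcard]
      rw [hq] at this ⊢
      linarith

/-- A prime of `F` has `p` primes above it if it splits completely and exactly one otherwise:
`#(above S) + (p - 1) * #{v ∈ S not split} = p * #S`. -/
theorem above_ncard (hdeg : Module.finrank F N = p) (S : Finset (Ideal (𝓞 F)))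
    (hSp : ∀ v ∈ S, v.IsPrime ∧ v ≠ ⊥)
    (I : Finset (Ideal (𝓞 F))) (hI : ∀ v, v ∈ I ↔ v ∈ S ∧ ¬ SplitsCompletely F N v) :
    (above F N (S : Set (Ideal (𝓞 F)))).ncard + (p - 1) * I.card = p * S.card := by
  have hp : p = (p - 1) + 1 := by
    have := (Fact.out : p.Prime).pos
    omega
  exact above_aux_ncard F N hdeg (p - 1) hp S hSp I hI

end Fermat.Agent.S14.FirstIneq
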