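import Fermat.Agent.S14.FirstIneq.PthRes

/-!
# S14 / FirstIneq / ClassGen : class-generating sets of primes, elements with prescribed
valuations, and non-residues with prescribed behaviour at a finite set (CRT).
Statements FROZEN (helper12).
-/

set_option autoImplicit false
set_option linter.unusedSectionVars false

namespace Fermat.Agent.S14.FirstIneq

open NumberField IsDedekindDomain UniqueFactorizationMonoid

variable (K : Type*) [Field K] [NumberField K]

theorem classGen_mono {S S' : Set (Ideal (𝓞 K))} (h : S ⊆ S') (hS : ClassGen K S) :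
    ClassGen K S' := by
  intro I hI
  obtain ⟨J, hJ, hJS, hP⟩ := hS I hI
  exact ⟨J, hJ, fun q hq => h (hJS q hq), hP⟩

/-- Key step for `exists_classGen`: every nonzero ideal `I` has a nonzero "complement" `J`
(`I * J` principal) which is contained in no element of the finite set `R` of nonzero primes. -/
theorem classgen_aux_key (R : Finset (Ideal (𝓞 K))) (hR : ∀ w ∈ R, w.IsPrime ∧ w ≠ ⊥)
    (I : Ideal (𝓞 K)) (hI : I ≠ ⊥) :
    ∃ J : Ideal (𝓞 K), J ≠ ⊥ ∧ (∀ w ∈ R, ¬ J ≤ w) ∧ (I * J).IsPrincipal := by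
  classical
  set M : Ideal (𝓞 K) := ∏ w ∈ R, w with hM
  have hM0 : M ≠ 0 := by
    rw [hM, Finset.prod_ne_zero_iff]
    intro w hw
    exact (hR w hw).2
  have hMw : ∀ w ∈ R, M ≤ w := fun w hw => Ideal.le_of_dvd (Finset.dvd_prod_of_mem _ hw)
  have hI0 : I ≠ 0 := hI
  obtain ⟨a, ha⟩ := IsDedekindDomain.exists_sup_span_eq (I := M * I) (J := I) Ideal.mul_le_right
    (mul_ne_zero hM0 hI0)
  have haI : a ∈ I := by
    rw [← ha]
    exact Ideal.mem_sup_right (Ideal.mem_span_singleton_self a)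
  by_cases ha0 : a = 0
  · -- then `M = ⊤`, so `R` has no elements
    subst ha0
    rw [Set.singleton_zero, Ideal.span_zero, sup_bot_eq] at ha
    have hMtop : M = 1 := by
      have : M * I = 1 * I := by rw [ha, one_mul]
      exact mul_right_cancel₀ hI0 this
    have hRempty : ∀ w ∈ R, False := by
      intro w hw
      apply (hR w hw).1.ne_top
      rw [eq_top_iff, ← Ideal.one_eq_top, ← hMtop]
      exact hMw w hw
    obtain ⟨b, hbI, hb0⟩ := Submodule.exists_mem_ne_zero_of_ne_bot hI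
    obtain ⟨J, hJ⟩ : I ∣ Ideal.span {b} := by
      rw [Ideal.dvd_iff_le, Ideal.span_singleton_le_iff_mem]
      exact hbI
    refine ⟨J, ?_, fun w hw => (hRempty w hw).elim, ?_⟩
    · rintro rfl
      rw [Ideal.mul_bot, Ideal.span_singleton_eq_bot] at hJ
      exact hb0 hJ
    · rw [← hJ]
      exact ⟨⟨b, rfl⟩⟩
  · obtain ⟨J, hJ⟩ : I ∣ Ideal.span {a} := by
      rw [Ideal.dvd_iff_le, Ideal.span_singleton_le_iff_mem]
      exact haI
    have hcop : M ⊔ J = ⊤ := by
      have : I * (M ⊔ J) = I * 1 := by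
        rw [Ideal.mul_sup, ← hJ, mul_comm I M, ha, mul_one]
      rw [← Ideal.one_eq_top]
      exact mul_left_cancel₀ hI0 this
    refine ⟨J, ?_, ?_, ?_⟩
    · rintro rfl
      rw [Ideal.mul_bot, Ideal.span_singleton_eq_bot] at hJ
      exact ha0 hJ
    · intro w hw hJw
      apply (hR w hw).1.ne_top
      rw [eq_top_iff, ← hcop]
      exact sup_le (hMw w hw) hJw
    · rw [← hJ]
      exact ⟨⟨a, rfl⟩⟩

/-- There is a finite class-generating set of nonzero primes avoiding a given finite set. -/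
theorem exists_classGen (R : Finset (Ideal (𝓞 K))) (hR : ∀ w ∈ R, w.IsPrime ∧ w ≠ ⊥) :
    ∃ S₀ : Finset (Ideal (𝓞 K)),
      (∀ v ∈ S₀, v.IsPrime ∧ v ≠ ⊥ ∧ v ∉ R) ∧ ClassGen K (S₀ : Set (Ideal (𝓞 K))) := by
  classical
  have hrep : ∀ c : ClassGroup (𝓞 K), ∃ J : Ideal (𝓞 K), J ≠ ⊥ ∧ (∀ w ∈ R, ¬ J ≤ w) ∧
      ∀ I : nonZeroDivisors (Ideal (𝓞 K)), ClassGroup.mk0 I = c →
        ((I : Ideal (𝓞 K)) * J).IsPrincipal := by
    intro c
    obtain ⟨⟨I₀, hI₀m⟩, hI₀⟩ := ClassGroup.mk0_surjective c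
    have hI₀0 : I₀ ≠ ⊥ := mem_nonZeroDivisors_iff_ne_zero.mp hI₀m
    obtain ⟨J, hJ0, hJR, hJP⟩ := classgen_aux_key K R hR I₀ hI₀0
    refine ⟨J, hJ0, hJR, ?_⟩
    rintro ⟨I, hIm⟩ hI
    have hJmem : J ∈ nonZeroDivisors (Ideal (𝓞 K)) := mem_nonZeroDivisors_iff_ne_zero.mpr hJ0
    have h1 : ClassGroup.mk0 ⟨I₀ * J, mul_mem hI₀m hJmem⟩ = 1 :=
      (ClassGroup.mk0_eq_one_iff _).mpr hJP
    have h2 : ClassGroup.mk0 ⟨I * J, mul_mem hIm hJmem⟩ = 1 := by
      rw [← Submonoid.mk_mul_mk _ I J hIm hJmem, map_mul, hI, ← hI₀, ← map_mul,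
        Submonoid.mk_mul_mk, h1]
    exact (ClassGroup.mk0_eq_one_iff _).mp h2
  choose J hJ0 hJR hJP using hrep
  refine ⟨Finset.univ.biUnion (fun c => (normalizedFactors (J c)).toFinset), ?_, ?_⟩
  · intro v hv
    rw [Finset.mem_biUnion] at hv
    obtain ⟨c, -, hvc⟩ := hv
    rw [Multiset.mem_toFinset] at hvc
    have hprime : Prime v := prime_of_normalized_factor v hvc
    refine ⟨Ideal.isPrime_of_prime hprime, hprime.ne_zero, ?_⟩
    intro hvR
    exact hJR c v hvR (Ideal.le_of_dvd (dvd_of_mem_normalizedFactors hvc))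
  · intro I hI
    have hImem : I ∈ nonZeroDivisors (Ideal (𝓞 K)) := mem_nonZeroDivisors_iff_ne_zero.mpr hI
    refine ⟨J (ClassGroup.mk0 ⟨I, hImem⟩), hJ0 _, ?_, hJP _ ⟨I, hImem⟩ rfl⟩
    intro q hq
    rw [Finset.mem_coe, Finset.mem_biUnion]
    exact ⟨_, Finset.mem_univ _, Multiset.mem_toFinset.mpr hq⟩

/-- Multiplicities in a product of powers of distinct nonzero primes. -/
theorem classgen_aux_count_prod (P : Finset (Ideal (𝓞 K)))
    (hP : ∀ u ∈ P, u.IsPrime ∧ u ≠ ⊥) (n : Ideal (𝓞 K) → ℕ) (v : Ideal (𝓞 K)) :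
    (normalizedFactors (∏ u ∈ P, u ^ n u)).count v = if v ∈ P then n v else 0 := by
  classical
  induction P using Finset.induction_on with
  | empty => rw [Finset.prod_empty, normalizedFactors_one]; simp
  | insert u P hu ih =>
    have hu' := hP u (Finset.mem_insert_self u P)
    have hP' : ∀ u ∈ P, u.IsPrime ∧ u ≠ ⊥ := fun x hx => hP x (Finset.mem_insert_of_mem hx)
    have hprime : Prime u := Ideal.prime_of_isPrime hu'.2 hu'.1
    have h1 : u ^ n u ≠ 0 := pow_ne_zero _ hprime.ne_zero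
    have h2 : ∏ x ∈ P, x ^ n x ≠ 0 := by
      rw [Finset.prod_ne_zero_iff]
      intro x hx
      exact pow_ne_zero _ (Ideal.prime_of_isPrime (hP' x hx).2 (hP' x hx).1).ne_zero
    rw [Finset.prod_insert hu, normalizedFactors_mul h1 h2, Multiset.count_add, ih hP',
      normalizedFactors_pow, normalizedFactors_irreducible hprime.irreducible, normalize_eq,
      Multiset.count_nsmul, Multiset.count_singleton]
    by_cases hvu : v = u
    · subst hvu
      simp [hu]
    · simp [hvu]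

/-- If `S` is class-generating, every finitely supported family of exponents is realised, outside
`S`, by the valuations of an element of `Kˣ`. -/
theorem ClassGen.exists_ord_eq {S : Set (Ideal (𝓞 K))} (hS : ClassGen K S)
    (a : Ideal (𝓞 K) → ℤ) (ha : {v | a v ≠ 0}.Finite) :
    ∃ c : Kˣ, ∀ v : Ideal (𝓞 K), v.IsPrime → v ≠ ⊥ → v ∉ S → ord K v (c : K) = a v := by
  classical
  set P : Finset (Ideal (𝓞 K)) := ha.toFinset.filter (fun v => v.IsPrime ∧ v ≠ ⊥) with hPdef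
  have hP : ∀ u ∈ P, u.IsPrime ∧ u ≠ ⊥ := fun u hu => (Finset.mem_filter.mp hu).2
  have key : ∀ n : Ideal (𝓞 K) → ℕ, ∃ y : 𝓞 K, y ≠ 0 ∧
      ∀ v : Ideal (𝓞 K), v.IsPrime → v ≠ ⊥ → v ∉ S →
      ord K v (algebraMap (𝓞 K) K y) = if v ∈ P then (n v : ℤ) else 0 := by
    intro n
    have hI : (∏ u ∈ P, u ^ n u) ≠ ⊥ := by
      rw [← Ideal.zero_eq_bot, Finset.prod_ne_zero_iff]
      intro x hx
      exact pow_ne_zero _ (Ideal.prime_of_isPrime (hP x hx).2 (hP x hx).1).ne_zero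
    obtain ⟨J, hJ, hJS, ⟨y, hy⟩⟩ := hS _ hI
    have hy' : (∏ u ∈ P, u ^ n u) * J = Ideal.span {y} := hy
    have hy0 : y ≠ 0 := by
      rintro rfl
      rw [Set.singleton_zero, Ideal.span_zero] at hy'
      exact mul_ne_zero hI hJ hy'
    refine ⟨y, hy0, ?_⟩
    intro v hv hv0 hvS
    rw [ord_algebraMap K hv hv0 hy0, ← hy', normalizedFactors_mul hI hJ, Multiset.count_add,
      classgen_aux_count_prod K P hP n v,
      Multiset.count_eq_zero_of_notMem (fun h => hvS (hJS v h))]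
    split_ifs <;> simp
  obtain ⟨y₁, hy₁, h₁⟩ := key (fun v => (a v).toNat)
  obtain ⟨y₂, hy₂, h₂⟩ := key (fun v => (- a v).toNat)
  have hy₁' : algebraMap (𝓞 K) K y₁ ≠ 0 := by
    simpa using hy₁
  have hy₂' : algebraMap (𝓞 K) K y₂ ≠ 0 := by
    simpa using hy₂
  refine ⟨Units.mk0 (algebraMap (𝓞 K) K y₁ / algebraMap (𝓞 K) K y₂) (div_ne_zero hy₁' hy₂'), ?_⟩
  intro v hv hv0 hvS
  rw [Units.val_mk0, ord_div K v hy₁' hy₂', h₁ v hv hv0 hvS, h₂ v hv hv0 hvS]
  by_cases hvP : v ∈ P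
  · simp only [hvP, if_true]
    omega
  · simp only [hvP, if_false]
    have : a v = 0 := by
      by_contra h
      apply hvP
      rw [hPdef, Finset.mem_filter]
      exact ⟨ha.mem_toFinset.mpr h, hv, hv0⟩
    omega

/-- Local step for `exists_nonres`: modulo a nonzero prime `w` not containing `p`, when `K`
contains a primitive `p`-th root of unity, some element is not a `p`-th power modulo `w`. -/
theorem classgen_aux_nonres_local (p : ℕ) [Fact p.Prime] (hζ : ∃ ζ : K, IsPrimitiveRoot ζ p)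
    {w : Ideal (𝓞 K)} (hw : w.IsPrime) (hw0 : w ≠ ⊥) (hpw : ((p : ℕ) : 𝓞 K) ∉ w) :
    ∃ g : 𝓞 K, g ∉ w ∧ ∀ c : 𝓞 K, g - c ^ p ∉ w := by
  have hp : p.Prime := Fact.out
  obtain ⟨ζ, hζ⟩ := hζ
  have : NeZero p := ⟨hp.ne_zero⟩
  have hζ' : IsPrimitiveRoot hζ.toInteger p := hζ.toInteger_isPrimitiveRoot
  generalize hζ.toInteger = z at hζ'
  have : w.IsMaximal := Ideal.IsPrime.isMaximal hw hw0
  have : Finite (𝓞 K ⧸ w) := inferInstance
  have hz1 : Ideal.Quotient.mk w z ≠ 1 := by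
    intro h1
    apply hpw
    have hsum : ∑ i ∈ Finset.range p, z ^ i = 0 := hζ'.geom_sum_eq_zero hp.one_lt
    have := congrArg (Ideal.Quotient.mk w) hsum
    rw [map_sum] at this
    simp only [map_pow, h1, one_pow, Finset.sum_const, Finset.card_range, map_zero] at this
    rw [← Ideal.Quotient.eq_zero_iff_mem]
    simpa using this
  have hninj : ¬ Function.Injective (fun y : 𝓞 K ⧸ w => y ^ p) := by
    intro hinj
    apply hz1
    apply hinj
    simp only [one_pow]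
    rw [← map_pow, hζ'.pow_eq_one, map_one]
  have hnsurj : ¬ Function.Surjective (fun y : 𝓞 K ⧸ w => y ^ p) :=
    fun hs => hninj (Finite.injective_iff_surjective.mpr hs)
  obtain ⟨g, hg⟩ : ∃ g : 𝓞 K ⧸ w, ∀ y : 𝓞 K ⧸ w, y ^ p ≠ g := by
    by_contra hcon
    apply hnsurj
    intro g
    by_contra hg
    exact hcon ⟨g, fun y hy => hg ⟨y, hy⟩⟩
  obtain ⟨g₀, rfl⟩ := Ideal.Quotient.mk_surjective g
  refine ⟨g₀, ?_, ?_⟩
  · intro hmem
    apply hg 0
    rw [zero_pow hp.ne_zero, eq_comm, Ideal.Quotient.eq_zero_iff_mem]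
    exact hmem
  · intro c hc
    apply hg (Ideal.Quotient.mk w c)
    rw [← map_pow, eq_comm]
    exact Ideal.Quotient.eq.mpr hc

/-- CRT: an algebraic integer prime to `R` which is a non-residue at `w ∈ R` and a `p`-th power
residue at the other elements of `R`.  (`N(w) ≡ 1 mod p` because `ζ_p ∈ K` and `p ∉ w`.) -/
theorem exists_nonres (p : ℕ) [Fact p.Prime] (hζ : ∃ ζ : K, IsPrimitiveRoot ζ p)
    (R : Finset (Ideal (𝓞 K)))
    (hR : ∀ w ∈ R, w.IsPrime ∧ w ≠ ⊥ ∧ ((p : ℕ) : 𝓞 K) ∉ w) {w : Ideal (𝓞 K)} (hw : w ∈ R) :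
    ∃ x : 𝓞 K, x ≠ 0 ∧ (∀ w' ∈ R, x ∉ w') ∧
      ¬ IsPthRes K p w (algebraMap (𝓞 K) K x) ∧
      ∀ w' ∈ R, w' ≠ w → IsPthRes K p w' (algebraMap (𝓞 K) K x) := by
  classical
  obtain ⟨hwp, hw0, hpw⟩ := hR w hw
  obtain ⟨g, hgw, hg⟩ := classgen_aux_nonres_local K p hζ hwp hw0 hpw
  obtain ⟨x, hx⟩ := IsDedekindDomain.exists_forall_sub_mem_ideal (s := R) (fun v => v)
    (fun _ => 1)
    (fun v hv => Ideal.prime_of_isPrime (hR v hv).2.1 (hR v hv).1)
    (fun i _ j _ hij => hij) (fun v => if (v : Ideal (𝓞 K)) = w then g else 1)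
  have hxw : x - g ∈ w := by simpa using hx w hw
  have hxw' : ∀ w' ∈ R, w' ≠ w → x - 1 ∈ w' := by
    intro w' hw' hne
    have := hx w' hw'
    simpa [hne] using this
  have hxnw : x ∉ w := by
    intro h
    apply hgw
    have := w.sub_mem h hxw
    simpa using this
  have hxn : ∀ w' ∈ R, x ∉ w' := by
    intro w' hw' h
    by_cases hne : w' = w
    · subst hne; exact hxnw h
    · have h1 : (1 : 𝓞 K) ∈ w' := by
        have := w'.sub_mem h (hxw' w' hw' hne)
        simpa using this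
      exact (hR w' hw').1.ne_top ((Ideal.eq_top_iff_one _).mpr h1)
  refine ⟨x, ?_, hxn, ?_, ?_⟩
  · rintro rfl
    exact hxnw w.zero_mem
  · rw [isPthRes_algebraMap_iff K p hwp]
    rintro ⟨-, c, hc⟩
    apply hg c
    have : g - c ^ p = (x - c ^ p) - (x - g) := by ring
    rw [this]
    exact w.sub_mem hc hxw
  · intro w' hw' hne
    rw [isPthRes_algebraMap_iff K p (hR w' hw').1]
    exact ⟨hxn w' hw', 1, by simpa using hxw' w' hw' hne⟩

end Fermat.Agent.S14.FirstIneq
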