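import Fermat.Agent.S14.Defs

/-!
# S14 / theory FirstIneq (owner helper12): shared definitions (FROZEN)

All files of the theory `FirstIneq` use exactly these notions.

* `normHom σ n`, `delHom σ` : the maps `x ↦ ∏_{i<n} σ^i x` and `x ↦ σ x / x` of a commutative group.
* `ord K v x` : the `v`-adic valuation (an integer) of `x : K` at the ideal `v` of `𝓞 K`
  (junk value `0` if `v` is not a nonzero prime or `x = 0`).
* `SUnits K S` : the `S`-units of `K` (units outside the set `S` of ideals of `𝓞 K`).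
* `IsPthRes K p w x` : `x = a / b` with `a, b ∈ 𝓞 K \ w` and `a ≡ b c^p mod w`
  (`x` is a `w`-unit and a `p`-th power residue modulo `w`).
* `above F N S` : the primes of `N` lying over elements of `S`.
* `IsRam F N w` : the prime `w` of `F` is ramified in `N` (`N/F` Galois).
* `unitsNorm F N`, `unitsIncl F N`, `unitsAut F N σ` : norm `Nˣ → Fˣ`, inclusion `Fˣ → Nˣ`,
  action of `σ : N ≃ₐ[F] N` on `Nˣ`.
* `ClassGen K S` : every ideal class contains (the inverse of) an ideal supported on `S`.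
-/

set_option autoImplicit false
set_option linter.unusedSectionVars false

namespace Fermat.Agent.S14.FirstIneq

open NumberField IsDedekindDomain UniqueFactorizationMonoid
open scoped Pointwise

universe u v

section Abstract

variable {Γ : Type*} [CommGroup Γ]

/-- `x ↦ ∏_{i<n} σ^i x`. -/
def normHom (σ : Γ →* Γ) (n : ℕ) : Γ →* Γ where
  toFun x := ∏ i ∈ Finset.range n, σ^[i] x
  map_one' := by simp [iterate_map_one]
  map_mul' x y := by simp [iterate_map_mul, Finset.prod_mul_distrib]

@[simp] theorem normHom_apply (σ : Γ →* Γ) (n : ℕ) (x : Γ) :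
    normHom σ n x = ∏ i ∈ Finset.range n, σ^[i] x := rfl

/-- `x ↦ σ x / x`. -/
def delHom (σ : Γ →* Γ) : Γ →* Γ where
  toFun x := σ x / x
  map_one' := by simp
  map_mul' x y := by simp [mul_div_mul_comm]

@[simp] theorem delHom_apply (σ : Γ →* Γ) (x : Γ) : delHom σ x = σ x / x := rfl

end Abstract

section Single

variable (K : Type*) [Field K] [NumberField K]

/-- The `v`-adic valuation of `x : K` as an integer (`0` if `v` is not a nonzero prime, or if
`x = 0`). -/
noncomputable def ord (v : Ideal (𝓞 K)) (x : K) : ℤ :=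
  open Classical in
  if h : v.IsPrime ∧ v ≠ ⊥ then
    - WithZero.log ((HeightOneSpectrum.valuation K
        (⟨v, h.1, h.2⟩ : HeightOneSpectrum (𝓞 K))) x)
  else 0

/-- The group of `S`-units of `K`: elements of `Kˣ` which are units at all primes outside `S`. -/
def SUnits (S : Set (Ideal (𝓞 K))) : Subgroup Kˣ where
  carrier := {x | ∀ v : HeightOneSpectrum (𝓞 K), v.asIdeal ∉ S → v.valuation K (x : K) = 1}
  mul_mem' := by
    intro a b ha hb v hv
    simp [ha v hv, hb v hv]
  one_mem' := by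
    intro v _
    simp
  inv_mem' := by
    intro a ha v hv
    simp [ha v hv]

/-- `x` is a `w`-unit which is a `p`-th power residue modulo `w`: `x = a / b` with
`a, b ∈ 𝓞 K \ w` and `a ≡ b * c ^ p mod w` for some `c`. -/
def IsPthRes (p : ℕ) (w : Ideal (𝓞 K)) (x : K) : Prop :=
  ∃ a b c : 𝓞 K, a ∉ w ∧ b ∉ w ∧ a - b * c ^ p ∈ w ∧
    x * algebraMap (𝓞 K) K b = algebraMap (𝓞 K) K a

/-- `S` generates the class group: for every nonzero ideal `I` there is a nonzero ideal `J`,
all of whose prime factors lie in `S`, with `I * J` principal. -/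
def ClassGen (S : Set (Ideal (𝓞 K))) : Prop :=
  ∀ I : Ideal (𝓞 K), I ≠ ⊥ →
    ∃ J : Ideal (𝓞 K), J ≠ ⊥ ∧ (∀ q ∈ normalizedFactors J, q ∈ S) ∧ (I * J).IsPrincipal

end Single

section Relative

variable (F : Type u) (N : Type v) [Field F] [NumberField F] [Field N] [NumberField N]
  [Algebra F N]

/-- The primes of `N` lying over an element of `S`. -/
def above (S : Set (Ideal (𝓞 F))) : Set (Ideal (𝓞 N)) :=
  {Q | Q.IsPrime ∧ Q.under (𝓞 F) ∈ S}

/-- (For `N/F` Galois.) The prime `w` of `F` is ramified in `N`. -/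
def IsRam (w : Ideal (𝓞 F)) : Prop :=
  ∃ Q : Ideal (𝓞 N), Q.IsPrime ∧ Q.LiesOver w ∧ ¬ UnramifiedAt F N Q

/-- The norm `Nˣ → Fˣ`. -/
noncomputable def unitsNorm : Nˣ →* Fˣ := Units.map (Algebra.norm F : N →* F)

/-- The inclusion `Fˣ → Nˣ`. -/
def unitsIncl : Fˣ →* Nˣ := Units.map (algebraMap F N : F →* N)

/-- The action of `σ ∈ Gal(N/F)` on `Nˣ`. -/
def unitsAut (σ : N ≃ₐ[F] N) : Nˣ →* Nˣ := Units.map (σ : N →* N)

@[simp] theorem coe_unitsNorm (z : Nˣ) : ((unitsNorm F N z : Fˣ) : F) = Algebra.norm F (z : N) := rfl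

@[simp] theorem coe_unitsIncl (x : Fˣ) : ((unitsIncl F N x : Nˣ) : N) = algebraMap F N (x : F) := rfl

@[simp] theorem coe_unitsAut (σ : N ≃ₐ[F] N) (z : Nˣ) : ((unitsAut F N σ z : Nˣ) : N) = σ (z : N) :=
  rfl

end Relative

end Fermat.Agent.S14.FirstIneq
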