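import Fermat.Agent.S14.FirstIneq.OrdRel

/-!
# S14 / FirstIneq / Fix : `S`-units of `N` versus `S`-units of `F` (fixed points, norms,
Galois stability).  Statements FROZEN (helper12).
-/

set_option autoImplicit false
set_option linter.unusedSectionVars false

namespace Fermat.Agent.S14.FirstIneq

open NumberField IsDedekindDomain UniqueFactorizationMonoid
open scoped Pointwise

universe u v

variable {p : ℕ} [Fact p.Prime]
variable (F : Type u) (N : Type v) [Field F] [NumberField F] [Field N] [NumberField N]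
  [Algebra F N] [IsGalois F N]

theorem unitsIncl_injective : Function.Injective (unitsIncl F N) :=
  Units.map_injective (f := (algebraMap F N : F →* N)) (algebraMap F N).injective

/-- Galois descent: the fixed points of `Gal(N/F)` on `Nˣ` are `Fˣ`. -/
theorem mem_range_unitsIncl_iff (z : Nˣ) :
    z ∈ (unitsIncl F N).range ↔ ∀ τ : N ≃ₐ[F] N, unitsAut F N τ z = z := by
  constructor
  · rintro ⟨x, rfl⟩ τ
    apply Units.ext
    rw [coe_unitsAut, coe_unitsIncl, AlgEquiv.commutes]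
  · intro h
    have h' : ∀ τ : N ≃ₐ[F] N, τ (z : N) = z := fun τ => by
      have h1 := congrArg Units.val (h τ)
      rwa [coe_unitsAut] at h1
    have : FiniteDimensional F N := Module.Finite.of_restrictScalars_finite ℚ F N
    obtain ⟨x, hx⟩ := (IsGalois.mem_range_algebraMap_iff_fixed (F := F) (E := N) (z : N)).mpr h'
    have hx0 : x ≠ 0 := by
      rintro rfl
      rw [map_zero] at hx
      exact z.ne_zero hx.symm
    refine ⟨Units.mk0 x hx0, ?_⟩
    apply Units.ext
    rw [coe_unitsIncl, Units.val_mk0, hx]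

/-- In prime degree it suffices to be fixed by one nontrivial automorphism. -/
theorem mem_range_unitsIncl_iff_of_ne_one (hdeg : Module.finrank F N = p) {σ : N ≃ₐ[F] N}
    (hσ : σ ≠ 1) (z : Nˣ) :
    z ∈ (unitsIncl F N).range ↔ unitsAut F N σ z = z := by
  rw [mem_range_unitsIncl_iff]
  constructor
  · intro h
    exact h σ
  · intro h τ
    have hσz : σ ∈ MulAction.stabilizer (N ≃ₐ[F] N) (z : N) := by
      rw [MulAction.mem_stabilizer_iff, AlgEquiv.smul_def]
      have h1 := congrArg Units.val h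
      rwa [coe_unitsAut] at h1
    have hτ := (Subgroup.zpowers_le.mpr hσz) (mem_zpowers_of_ne_one F N hdeg hσ τ)
    rw [MulAction.mem_stabilizer_iff, AlgEquiv.smul_def] at hτ
    apply Units.ext
    rw [coe_unitsAut, hτ]

/-- `x ∈ Fˣ` is an `S`-unit of `F` iff it is an `S`-unit of `N` (w.r.t. the primes above `S`). -/
theorem unitsIncl_mem_SUnits_iff (S : Set (Ideal (𝓞 F))) (x : Fˣ) :
    unitsIncl F N x ∈ SUnits N (above F N S) ↔ x ∈ SUnits F S := by
  rw [mem_SUnits_iff, mem_SUnits_iff]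
  constructor
  · intro h v hv hv0 hvS
    obtain ⟨Q, hQ, hQv⟩ := exists_liesOver F N hv hv0
    have hQ0 : Q ≠ ⊥ := ne_bot_of_liesOver F N hv0 hQv
    have hQS : Q ∉ above F N S := by
      rintro ⟨_, hQS⟩
      apply hvS
      rw [hQv.over]
      exact hQS
    have h1 := h Q hQ hQ0 hQS
    rw [coe_unitsIncl] at h1
    exact (ord_algebraMap_eq_zero_iff F N hQ hv0 hQv (x : F)).mp h1
  · intro h Q hQ hQ0 hQS
    obtain ⟨hv, hv0⟩ := under_isPrime_ne_bot F N hQ hQ0
    have hvS : Q.under (𝓞 F) ∉ S := fun hS => hQS ⟨hQ, hS⟩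
    rw [coe_unitsIncl]
    exact (ord_algebraMap_eq_zero_iff F N hQ hv0 ⟨rfl⟩ (x : F)).mpr (h _ hv hv0 hvS)

theorem unitsAut_mem_SUnits (S : Set (Ideal (𝓞 F))) (τ : N ≃ₐ[F] N) {z : Nˣ}
    (hz : z ∈ SUnits N (above F N S)) : unitsAut F N τ z ∈ SUnits N (above F N S) := by
  rw [mem_SUnits_iff] at hz ⊢
  intro Q hQ hQ0 hQS
  obtain ⟨hv, hv0⟩ := under_isPrime_ne_bot F N hQ hQ0
  have hQ' := smul_isPrime_liesOver F N hQ (v := Q.under (𝓞 F)) ⟨rfl⟩ τ⁻¹
  have hQ'0 : τ⁻¹ • Q ≠ ⊥ := ne_bot_of_liesOver F N hv0 hQ'.2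
  have hQ'S : τ⁻¹ • Q ∉ above F N S := by
    rintro ⟨_, h⟩
    apply hQS
    refine ⟨hQ, ?_⟩
    rw [hQ'.2.over]
    exact h
  have h1 := hz _ hQ'.1 hQ'0 hQ'S
  have h2 := ord_smul F N τ (τ⁻¹ • Q) (z : N)
  rw [smul_inv_smul] at h2
  rw [coe_unitsAut, h2]
  exact h1

theorem unitsNorm_mem_SUnits (S : Set (Ideal (𝓞 F))) {z : Nˣ}
    (hz : z ∈ SUnits N (above F N S)) : unitsNorm F N z ∈ SUnits F S := by
  have : FiniteDimensional F N := Module.Finite.of_restrictScalars_finite ℚ F N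
  rw [← unitsIncl_mem_SUnits_iff F N]
  have h : unitsIncl F N (unitsNorm F N z) = ∏ τ : N ≃ₐ[F] N, unitsAut F N τ z := by
    apply Units.ext
    rw [coe_unitsIncl, coe_unitsNorm, Algebra.norm_eq_prod_automorphisms, Units.coe_prod]
    rfl
  rw [h]
  exact Subgroup.prod_mem _ (fun τ _ => unitsAut_mem_SUnits F N S τ hz)

theorem unitsAut_iterate (σ : N ≃ₐ[F] N) (n : ℕ) (z : Nˣ) :
    (unitsAut F N σ)^[n] z = unitsAut F N (σ ^ n) z := by
  induction n with
  | zero =>
    apply Units.ext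
    rw [Function.iterate_zero, id, pow_zero, coe_unitsAut, AlgEquiv.one_apply]
  | succ n ih =>
    rw [Function.iterate_succ_apply', ih]
    apply Units.ext
    rw [coe_unitsAut, coe_unitsAut, coe_unitsAut, pow_succ', AlgEquiv.mul_apply]

theorem unitsAut_iterate_card (hdeg : Module.finrank F N = p) (σ : N ≃ₐ[F] N) (z : Nˣ) :
    (unitsAut F N σ)^[p] z = z := by
  rw [unitsAut_iterate, pow_card_eq_one F N hdeg σ]
  apply Units.ext
  rw [coe_unitsAut, AlgEquiv.one_apply]

/-- The norm, viewed in `Nˣ`, is `normHom σ p` for a generator `σ`. -/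
theorem unitsIncl_unitsNorm (hdeg : Module.finrank F N = p) {σ : N ≃ₐ[F] N} (hσ : σ ≠ 1)
    (z : Nˣ) : unitsIncl F N (unitsNorm F N z) = normHom (unitsAut F N σ) p z := by
  apply Units.ext
  rw [coe_unitsIncl, coe_unitsNorm, algebraMap_norm_eq_prod_pow F N hdeg hσ, normHom_apply,
    Units.coe_prod]
  refine Finset.prod_congr rfl (fun i _ => ?_)
  rw [unitsAut_iterate, coe_unitsAut]

end Fermat.Agent.S14.FirstIneq
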