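import Fermat.Agent.S14.FirstIneq.OrdRel
import Fermat.Agent.S14.FirstIneq.Fix
import Fermat.Agent.S14.FirstIneq.ClassGen
import Fermat.Agent.S14.FirstIneq.H1.Count
import Fermat.Agent.S14.FirstIneq.H1.Hilbert
import Fermat.Agent.S14.FirstIneq.H1.Orbit
import Fermat.Agent.S14.FirstIneq.H1.Kernel

/-!
# S14 / FirstIneq / H1 : the bound `|H¹(G, S-units of N)| ≤ p ^ #(ramified primes)`
(Hilbert 90 + ambiguous ideals).  Statement FROZEN (helper12).
-/

set_option autoImplicit false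
set_option linter.unusedSectionVars false

namespace Fermat.Agent.S14.FirstIneq

open NumberField IsDedekindDomain UniqueFactorizationMonoid
open scoped Pointwise

universe u v

variable {p : ℕ} [Fact p.Prime]
variable (F : Type u) (N : Type v) [Field F] [NumberField F] [Field N] [NumberField N]
  [Algebra F N] [IsGalois F N]

set_option linter.unusedVariables false in
/-- `N/F` Galois of prime degree `p`, unramified outside the finite set `R`; `S` a finite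
class-generating set of primes of `F` disjoint from `R`; `W = S`-units of `N`, `σ` a generator.
Then `[ker ν ∩ W : δ W] ≤ p ^ #{w ∈ R ramified}`. -/
theorem h1_bound (hdeg : Module.finrank F N = p)
    (R : Finset (Ideal (𝓞 F))) (hR : ∀ w ∈ R, w.IsPrime ∧ w ≠ ⊥)
    (hram : ∀ Q : Ideal (𝓞 N), Q.IsPrime → Q ≠ ⊥ → Q.under (𝓞 F) ∉ R → UnramifiedAt F N Q)
    (S : Finset (Ideal (𝓞 F))) (hS : ∀ v ∈ S, v.IsPrime ∧ v ≠ ⊥ ∧ v ∉ R)
    (hgen : ClassGen F (S : Set (Ideal (𝓞 F))))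
    (Rr : Finset (Ideal (𝓞 F))) (hRr : ∀ w, w ∈ Rr ↔ w ∈ R ∧ IsRam F N w)
    {σ : N ≃ₐ[F] N} (hσ : σ ≠ 1) :
    ((SUnits N (above F N (S : Set (Ideal (𝓞 F))))).map (delHom (unitsAut F N σ))).relIndex
        (SUnits N (above F N (S : Set (Ideal (𝓞 F)))) ⊓ (normHom (unitsAut F N σ) p).ker)
      ≤ p ^ Rr.card := by
  classical
  -- a prime of `N` above each `w ∈ Rr`
  have hex : ∀ w : Rr, ∃ Q : Ideal (𝓞 N), Q.IsPrime ∧ Q.LiesOver (w : Ideal (𝓞 F)) := fun w =>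
    exists_liesOver F N (hR w ((hRr w).mp w.2).1).1 (hR w ((hRr w).mp w.2).1).2
  choose Qw hQw using hex
  -- Hilbert 90: a choice of `γ` with `σ γ / γ = ε`
  have hγex : ∀ ε : ↥(SUnits N (above F N (S : Set (Ideal (𝓞 F)))) ⊓
      (normHom (unitsAut F N σ) p).ker), ∃ γ : Nˣ, delHom (unitsAut F N σ) γ = (ε : Nˣ) :=
    fun ε => H1.hilbert90 F N hdeg hσ ε.2.2
  choose γ hγ using hγex
  -- the invariant `θ ε = (ord_{Q_w} γ mod p)_w`
  have key : ∀ x y : ↥(SUnits N (above F N (S : Set (Ideal (𝓞 F)))) ⊓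
      (normHom (unitsAut F N σ) p).ker),
      (fun w : Rr => ((ord N (Qw w) ((γ x : Nˣ) : N) : ℤ) : ZMod p)) =
        (fun w : Rr => ((ord N (Qw w) ((γ y : Nˣ) : N) : ℤ) : ZMod p)) →
      (x : Nˣ)⁻¹ * (y : Nˣ) ∈
        (SUnits N (above F N (S : Set (Ideal (𝓞 F))))).map (delHom (unitsAut F N σ)) := by
    intro x y hxy
    have hg : delHom (unitsAut F N σ) (γ y / γ x) = (x : Nˣ)⁻¹ * (y : Nˣ) := by
      rw [map_div, hγ, hγ, div_eq_mul_inv, mul_comm]
    have hgW : delHom (unitsAut F N σ) (γ y / γ x) ∈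
        SUnits N (above F N (S : Set (Ideal (𝓞 F)))) := by
      rw [hg]
      exact mul_mem (inv_mem x.2.1) y.2.1
    have hdiv : ∀ w ∈ Rr, ∀ Q : Ideal (𝓞 N), Q.IsPrime → Q.LiesOver w →
        (p : ℤ) ∣ ord N Q ((γ y / γ x : Nˣ) : N) := by
      intro w hw Q hQ hQw'
      have hwR := (hRr w).mp hw
      have hQeq : Q = Qw ⟨w, hw⟩ :=
        eq_of_liesOver_of_not_splitsCompletely F N hdeg (hR w hwR.1).2
          (not_splitsCompletely_of_isRam F N hwR.2) hQ (hQw ⟨w, hw⟩).1 hQw' (hQw ⟨w, hw⟩).2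
      have h1 := congrFun hxy ⟨w, hw⟩
      have h2 : ord N (Qw ⟨w, hw⟩) ((γ y / γ x : Nˣ) : N) =
          ord N (Qw ⟨w, hw⟩) ((γ y : Nˣ) : N) - ord N (Qw ⟨w, hw⟩) ((γ x : Nˣ) : N) := by
        rw [Units.val_div_eq_div_val]
        exact ord_div N _ (γ y).ne_zero (γ x).ne_zero
      rw [hQeq, h2]
      exact (ZMod.intCast_eq_intCast_iff_dvd_sub _ _ p).mp h1
    obtain ⟨c, hc⟩ := H1.exists_div_mem_SUnits F N hdeg R hR hram S hgen Rr hRr (γ y / γ x)
      (fun v hv0 hvS Q Q' hQ hQ' hQv hQ'v =>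
        H1.ord_eq_of_liesOver F N hdeg hσ (S : Set (Ideal (𝓞 F))) hgW hv0 hvS hQ hQ' hQv hQ'v)
      hdiv
    refine ⟨γ y / γ x / unitsIncl F N c, hc, ?_⟩
    rw [map_div, H1.delHom_unitsIncl, div_one, hg]
  have hcount := H1.relIndex_le_card
    ((SUnits N (above F N (S : Set (Ideal (𝓞 F))))).map (delHom (unitsAut F N σ)))
    (SUnits N (above F N (S : Set (Ideal (𝓞 F)))) ⊓ (normHom (unitsAut F N σ) p).ker)
    (fun x => fun w : Rr => ((ord N (Qw w) ((γ x : Nˣ) : N) : ℤ) : ZMod p)) key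
  have hcard : Nat.card (Rr → ZMod p) = p ^ Rr.card := by
    rw [Nat.card_eq_fintype_card, Fintype.card_fun, ZMod.card, Fintype.card_coe]
  exact hcount.trans_eq hcard

end Fermat.Agent.S14.FirstIneq
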