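import Fermat.Agent.S14.FirstIneq.Ord
import Fermat.Agent.S14.FirstIneq.OrdRel.OrdSmul
import Fermat.Agent.S14.FirstIneq.OrdRel.Resid

/-!
# S14 / FirstIneq / OrdRel : valuations and primes in a Galois extension `N/F` of number fields
(mostly for `[N : F] = p` prime).  Statements FROZEN (helper12).
-/

set_option autoImplicit false
set_option linter.unusedSectionVars false

namespace Fermat.Agent.S14.FirstIneq

open NumberField IsDedekindDomain UniqueFactorizationMonoid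
open scoped Pointwise

universe u v

variable {p : ℕ} [Fact p.Prime]
variable (F : Type u) (N : Type v) [Field F] [NumberField F] [Field N] [NumberField N]
  [Algebra F N] [IsGalois F N]

/-! ### Auxiliary lemmas -/

theorem ordrel_aux_card (hdeg : Module.finrank F N = p) : Nat.card (N ≃ₐ[F] N) = p := by
  rw [IsGalois.card_aut_eq_finrank, hdeg]

/-- In a group of prime order, a nontrivial subgroup is everything. -/
theorem ordrel_aux_eq_top (hdeg : Module.finrank F N = p) {H : Subgroup (N ≃ₐ[F] N)}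
    (hH : H ≠ ⊥) : H = ⊤ := by
  have : Fact (Nat.card (N ≃ₐ[F] N)).Prime := by
    rw [ordrel_aux_card F N hdeg]; infer_instance
  exact (Subgroup.eq_bot_or_eq_top_of_prime_card H).resolve_left hH

theorem ordrel_aux_exists_smul_eq {v : Ideal (𝓞 F)} {Q Q' : Ideal (𝓞 N)}
    (hQ : Q.IsPrime) (hQ' : Q'.IsPrime) (hQv : Q.LiesOver v) (hQ'v : Q'.LiesOver v) :
    ∃ τ : N ≃ₐ[F] N, τ • Q = Q' :=
  Ideal.exists_smul_eq_of_isGaloisGroup v Q Q' (N ≃ₐ[F] N)

theorem ordrel_aux_smul_eq (hdeg : Module.finrank F N = p)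
    {v : Ideal (𝓞 F)} (hns : ¬ SplitsCompletely F N v) {Q : Ideal (𝓞 N)}
    (hQ : Q.IsPrime) (hQv : Q.LiesOver v) (τ : N ≃ₐ[F] N) : τ • Q = Q := by
  have hns' : ∃ Q₀ : Ideal (𝓞 N), Q₀.IsPrime ∧ Q₀.LiesOver v ∧
      MulAction.stabilizer (N ≃ₐ[F] N) Q₀ ≠ ⊥ := by
    by_contra hcon
    exact hns (fun Q₀ h1 h2 => by_contra fun h3 => hcon ⟨Q₀, h1, h2, h3⟩)
  obtain ⟨Q₀, hQ₀, hQ₀v, hstab⟩ := hns'
  have htop := ordrel_aux_eq_top F N hdeg hstab
  obtain ⟨ρ, rfl⟩ := ordrel_aux_exists_smul_eq F N hQ₀ hQ hQ₀v hQv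
  have h1 : ∀ g : N ≃ₐ[F] N, g • Q₀ = Q₀ := fun g => by
    have : g ∈ MulAction.stabilizer (N ≃ₐ[F] N) Q₀ := by rw [htop]; trivial
    exact this
  rw [h1 ρ, h1 τ]

theorem ordrel_aux_ord_eq {K : Type*} [Field K] [NumberField K] {v : Ideal (𝓞 K)}
    (hv : v.IsPrime) (hv0 : v ≠ ⊥) (x : K) :
    ord K v x = - WithZero.log ((HeightOneSpectrum.valuation K
        (⟨v, hv, hv0⟩ : HeightOneSpectrum (𝓞 K))) x) := by
  unfold ord
  rw [dif_pos ⟨hv, hv0⟩]

/-- `ord_Q (x) = e * ord_v (x)` for `x ∈ F` and `Q | v`. -/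
theorem ordrel_aux_ord_algebraMap {v : Ideal (𝓞 F)} {Q : Ideal (𝓞 N)} (hQ : Q.IsPrime)
    (hv0 : v ≠ ⊥) (hQv : Q.LiesOver v) (x : F) :
    ord N Q (algebraMap F N x) = (v.ramificationIdx' Q : ℤ) * ord F v x := by
  have hv : v.IsPrime := Ideal.isPrime_of_liesOver (p := v) (P := Q)
  have hQ0 : Q ≠ ⊥ := Ideal.ne_bot_of_liesOver_of_ne_bot hv0 Q
  rw [ordrel_aux_ord_eq hQ hQ0, ordrel_aux_ord_eq hv hv0]
  have key := HeightOneSpectrum.valuation_liesOver (K := F) N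
    (⟨v, hv, hv0⟩ : HeightOneSpectrum (𝓞 F)) (⟨Q, hQ, hQ0⟩ : HeightOneSpectrum (𝓞 N)) x
  rw [← key, WithZero.log_pow]
  simp

theorem ordrel_aux_ramIdx_ne_zero {v : Ideal (𝓞 F)} {Q : Ideal (𝓞 N)} (hQ : Q.IsPrime)
    (hv0 : v ≠ ⊥) (hQv : Q.LiesOver v) : v.ramificationIdx' Q ≠ 0 :=
  Ideal.IsDedekindDomain.ramificationIdx'_ne_zero_of_liesOver Q hv0

/-- The ramification index is the order of the inertia group. -/
theorem ordrel_aux_ramIdx_eq_card {v : Ideal (𝓞 F)} {Q : Ideal (𝓞 N)} (hQ : Q.IsPrime)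
    (hv0 : v ≠ ⊥) (hQv : Q.LiesOver v) :
    v.ramificationIdx' Q = Nat.card (Q.inertia (N ≃ₐ[F] N)) := by
  have hv : v.IsPrime := Ideal.isPrime_of_liesOver (p := v) (P := Q)
  have := Ideal.finiteQuotientOfFreeOfNeBot v hv0
  rw [Ideal.card_inertia_eq_ramificationIdxIn (G := N ≃ₐ[F] N) v Q,
    Ideal.ramificationIdxIn_eq_ramificationIdx v Q (N ≃ₐ[F] N),
    Ideal.ramificationIdx'_eq_ramificationIdx v Q hv0]

/-! ### The frozen statements -/

/-- Galois equivariance of the valuation. -/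
theorem ord_smul (τ : N ≃ₐ[F] N) (Q : Ideal (𝓞 N)) (x : N) :
    ord N (τ • Q) (τ x) = ord N Q x :=
  ordrel_aux_smul_main F N τ Q x

theorem under_isPrime_ne_bot {Q : Ideal (𝓞 N)} (hQ : Q.IsPrime) (hQ0 : Q ≠ ⊥) :
    (Q.under (𝓞 F)).IsPrime ∧ Q.under (𝓞 F) ≠ ⊥ := by
  refine ⟨inferInstance, fun h => hQ0 ?_⟩
  exact Ideal.eq_bot_of_comap_eq_bot (R := 𝓞 F) h

theorem ne_bot_of_liesOver {Q : Ideal (𝓞 N)} {v : Ideal (𝓞 F)} (hv0 : v ≠ ⊥)
    (hQv : Q.LiesOver v) : Q ≠ ⊥ :=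
  Ideal.ne_bot_of_liesOver_of_ne_bot hv0 Q

theorem exists_liesOver {v : Ideal (𝓞 F)} (hv : v.IsPrime) (hv0 : v ≠ ⊥) :
    ∃ Q : Ideal (𝓞 N), Q.IsPrime ∧ Q.LiesOver v := by
  obtain ⟨⟨Q, hQ1, hQ2⟩⟩ := (inferInstance : Nonempty (Ideal.primesOver v (𝓞 N)))
  exact ⟨Q, hQ1, hQ2⟩

/-- The Galois group acts transitively on the primes above `v`. -/
theorem exists_smul_eq_of_liesOver {v : Ideal (𝓞 F)} {Q Q' : Ideal (𝓞 N)}
    (hQ : Q.IsPrime) (hQ' : Q'.IsPrime) (hQv : Q.LiesOver v) (hQ'v : Q'.LiesOver v)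
    (hv0 : v ≠ ⊥) : ∃ τ : N ≃ₐ[F] N, τ • Q = Q' :=
  ordrel_aux_exists_smul_eq F N hQ hQ' hQv hQ'v

theorem smul_isPrime_liesOver {v : Ideal (𝓞 F)} {Q : Ideal (𝓞 N)} (hQ : Q.IsPrime)
    (hQv : Q.LiesOver v) (τ : N ≃ₐ[F] N) : (τ • Q).IsPrime ∧ (τ • Q).LiesOver v :=
  ⟨inferInstance, inferInstance⟩

/-- `ord_Q (x) = 0 ↔ ord_v (x) = 0` for `x ∈ F` and `Q | v`. -/
theorem ord_algebraMap_eq_zero_iff {v : Ideal (𝓞 F)} {Q : Ideal (𝓞 N)} (hQ : Q.IsPrime)
    (hv0 : v ≠ ⊥) (hQv : Q.LiesOver v) (x : F) :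
    ord N Q (algebraMap F N x) = 0 ↔ ord F v x = 0 := by
  rw [ordrel_aux_ord_algebraMap F N hQ hv0 hQv x, mul_eq_zero]
  have h := ordrel_aux_ramIdx_ne_zero F N hQ hv0 hQv
  constructor
  · rintro (h' | h')
    · exact absurd (by exact_mod_cast h') h
    · exact h'
  · exact fun h' => Or.inr h'

/-- Unramified case: `ord_Q (x) = ord_v (x)` for `x ∈ F`. -/
theorem ord_algebraMap_of_unramified {v : Ideal (𝓞 F)} {Q : Ideal (𝓞 N)} (hQ : Q.IsPrime)
    (hv0 : v ≠ ⊥) (hQv : Q.LiesOver v) (hunr : UnramifiedAt F N Q) (x : F) :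
    ord N Q (algebraMap F N x) = ord F v x := by
  rw [ordrel_aux_ord_algebraMap F N hQ hv0 hQv x, ordrel_aux_ramIdx_eq_card F N hQ hv0 hQv,
    show Q.inertia (N ≃ₐ[F] N) = ⊥ from hunr, Subgroup.card_bot]
  simp

/-- Ramified case in prime degree `p`: `ord_Q (x) = p * ord_v (x)` for `x ∈ F`. -/
theorem ord_algebraMap_of_ramified (hdeg : Module.finrank F N = p) {v : Ideal (𝓞 F)}
    {Q : Ideal (𝓞 N)} (hQ : Q.IsPrime) (hv0 : v ≠ ⊥) (hQv : Q.LiesOver v)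
    (hram : ¬ UnramifiedAt F N Q) (x : F) :
    ord N Q (algebraMap F N x) = p * ord F v x := by
  rw [ordrel_aux_ord_algebraMap F N hQ hv0 hQv x, ordrel_aux_ramIdx_eq_card F N hQ hv0 hQv,
    show Q.inertia (N ≃ₐ[F] N) = ⊤ from ordrel_aux_eq_top F N hdeg hram, Subgroup.card_top,
    ordrel_aux_card F N hdeg]

/-- In prime degree, a prime which does not split completely has a unique prime above it. -/
theorem eq_of_liesOver_of_not_splitsCompletely (hdeg : Module.finrank F N = p)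
    {v : Ideal (𝓞 F)} (hv0 : v ≠ ⊥) (hns : ¬ SplitsCompletely F N v) {Q Q' : Ideal (𝓞 N)}
    (hQ : Q.IsPrime) (hQ' : Q'.IsPrime) (hQv : Q.LiesOver v) (hQ'v : Q'.LiesOver v) :
    Q = Q' := by
  obtain ⟨ρ, rfl⟩ := ordrel_aux_exists_smul_eq F N hQ hQ' hQv hQ'v
  exact (ordrel_aux_smul_eq F N hdeg hns hQ hQv ρ).symm

theorem smul_eq_of_not_splitsCompletely (hdeg : Module.finrank F N = p)
    {v : Ideal (𝓞 F)} (hv0 : v ≠ ⊥) (hns : ¬ SplitsCompletely F N v) {Q : Ideal (𝓞 N)}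
    (hQ : Q.IsPrime) (hQv : Q.LiesOver v) (τ : N ≃ₐ[F] N) : τ • Q = Q :=
  ordrel_aux_smul_eq F N hdeg hns hQ hQv τ

/-- A ramified prime does not split completely. -/
theorem not_splitsCompletely_of_isRam {w : Ideal (𝓞 F)} (hw : IsRam F N w) :
    ¬ SplitsCompletely F N w := by
  obtain ⟨Q, hQ, hQw, hram⟩ := hw
  intro hs
  apply hram
  have h1 := hs Q hQ hQw
  have h2 := Ideal.inertia_le_stabilizer (M := N ≃ₐ[F] N) Q
  rw [h1] at h2
  exact le_bot_iff.mp h2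

/-- In prime degree: at a ramified prime the inertia group is everything,
i.e. every `τ` acts trivially on `𝓞 N / Q`. -/
theorem smul_sub_mem_of_ramified (hdeg : Module.finrank F N = p) {Q : Ideal (𝓞 N)}
    (hQ : Q.IsPrime) (hram : ¬ UnramifiedAt F N Q) (τ : N ≃ₐ[F] N) (a : 𝓞 N) :
    τ • a - a ∈ Q := by
  have htop := ordrel_aux_eq_top F N hdeg hram
  have : τ ∈ Q.inertia (N ≃ₐ[F] N) := by
    rw [show Q.inertia (N ≃ₐ[F] N) = ⊤ from htop]; trivial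
  exact this a

/-- In prime degree: at a ramified prime `Q | w` the residue field does not grow:
every integer of `N` is congruent modulo `Q` to an integer of `F`. -/
theorem exists_sub_mem_of_ramified (hdeg : Module.finrank F N = p) {Q : Ideal (𝓞 N)}
    (hQ : Q.IsPrime) (hQ0 : Q ≠ ⊥) (hram : ¬ UnramifiedAt F N Q) (a : 𝓞 N) :
    ∃ b : 𝓞 F, a - algebraMap (𝓞 F) (𝓞 N) b ∈ Q :=
  ordrel_aux_res_exists_sub_mem F N hdeg hQ hQ0 hram a

/-- Every nontrivial element of a Galois group of prime order generates it. -/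
theorem mem_zpowers_of_ne_one (hdeg : Module.finrank F N = p) {σ : N ≃ₐ[F] N} (hσ : σ ≠ 1)
    (τ : N ≃ₐ[F] N) : τ ∈ Subgroup.zpowers σ := by
  have h := zpowers_eq_top_of_prime_card (ordrel_aux_card F N hdeg) hσ
  rw [h]; trivial

theorem pow_card_eq_one (hdeg : Module.finrank F N = p) (σ : N ≃ₐ[F] N) : σ ^ p = 1 := by
  have := pow_card_eq_one' (G := N ≃ₐ[F] N) (x := σ)
  rwa [ordrel_aux_card F N hdeg] at this

theorem exists_ne_one (hdeg : Module.finrank F N = p) : ∃ σ : N ≃ₐ[F] N, σ ≠ 1 := by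
  have hp : (1 : ℕ) < Nat.card (N ≃ₐ[F] N) := by
    rw [ordrel_aux_card F N hdeg]; exact (Fact.out : p.Prime).one_lt
  have : Nontrivial (N ≃ₐ[F] N) := (Finite.one_lt_card_iff_nontrivial).mp hp
  exact exists_ne 1

/-- The norm is the product over the powers of a generator. -/
theorem algebraMap_norm_eq_prod_pow (hdeg : Module.finrank F N = p) {σ : N ≃ₐ[F] N}
    (hσ : σ ≠ 1) (z : N) :
    algebraMap F N (Algebra.norm F z) = ∏ i ∈ Finset.range p, (σ ^ i) z := by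
  classical
  rw [Algebra.norm_eq_prod_automorphisms]
  have hcard := ordrel_aux_card F N hdeg
  have hord : orderOf σ = p := by
    have h1 : orderOf σ ∣ p := by
      rw [← hcard]; exact orderOf_dvd_natCard σ
    rcases (Nat.dvd_prime (Fact.out : p.Prime)).mp h1 with h | h
    · exact absurd (orderOf_eq_one_iff.mp h) hσ
    · exact h
  symm
  refine Finset.prod_bij (fun i _ => σ ^ i) (fun _ _ => Finset.mem_univ _) ?_ ?_ (fun _ _ => rfl)
  · intro i hi j hj hij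
    have := pow_injOn_Iio_orderOf (x := σ)
    rw [hord] at this
    exact this (by simpa using hi) (by simpa using hj) hij
  · intro τ _
    have hτ := mem_zpowers_of_ne_one F N hdeg hσ τ
    rw [← mem_powers_iff_mem_zpowers] at hτ
    obtain ⟨k, hk⟩ := hτ
    refine ⟨k % p, by simpa using Nat.mod_lt k (Fact.out : p.Prime).pos, ?_⟩
    rw [← hk, ← hord]
    exact pow_mod_orderOf σ k

end Fermat.Agent.S14.FirstIneq
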