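import Fermat.Agent.S14.FirstIneq.PthRes
import Fermat.Agent.S14.FirstIneq.OrdRel

/-!
# S14 / FirstIneq / NormZ : local behaviour of global norms (`N/F` Galois of prime degree `p`):
at a non-split unramified prime the valuation of a norm is divisible by `p`; at a ramified prime
the norm of a unit is a `p`-th power residue.  Statements FROZEN (helper12).
-/

set_option autoImplicit false
set_option linter.unusedSectionVars false

namespace Fermat.Agent.S14.FirstIneq

open NumberField IsDedekindDomain UniqueFactorizationMonoid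
open scoped Pointwise

universe u v

variable {p : ℕ} [Fact p.Prime]
variable (F : Type u) (N : Type v) [Field F] [NumberField F] [Field N] [NumberField N]
  [Algebra F N] [IsGalois F N]

/-- `v` unramified and not split (inert): `p ∣ ord_v (N z)`. -/
theorem dvd_ord_unitsNorm (hdeg : Module.finrank F N = p) {v : Ideal (𝓞 F)} (hv : v.IsPrime)
    (hv0 : v ≠ ⊥)
    (hunr : ∀ Q : Ideal (𝓞 N), Q.IsPrime → Q.LiesOver v → UnramifiedAt F N Q)
    (hns : ¬ SplitsCompletely F N v) (z : Nˣ) :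
    (p : ℤ) ∣ ord F v ((unitsNorm F N z : Fˣ) : F) := by
  obtain ⟨σ, hσ⟩ := exists_ne_one (p := p) F N hdeg
  obtain ⟨Q, hQ, hQv⟩ := exists_liesOver F N hv hv0
  have h1 : ord N Q (algebraMap F N (Algebra.norm F (z : N))) =
      ord F v (Algebra.norm F (z : N)) :=
    ord_algebraMap_of_unramified F N hQ hv0 hQv (hunr Q hQ hQv) _
  rw [algebraMap_norm_eq_prod_pow (p := p) F N hdeg hσ (z : N),
    ord_prod N Q (Finset.range p) (fun i => (σ ^ i) (z : N))
      (fun i _ => (map_ne_zero (σ ^ i)).mpr z.ne_zero)] at h1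
  have h2 : ∀ i ∈ Finset.range p, ord N Q ((σ ^ i) (z : N)) = ord N Q (z : N) := by
    intro i _
    have h3 := ord_smul F N (σ ^ i) Q (z : N)
    rwa [smul_eq_of_not_splitsCompletely (p := p) F N hdeg hv0 hns hQ hQv (σ ^ i)] at h3
  rw [Finset.sum_congr rfl h2, Finset.sum_const, Finset.card_range, nsmul_eq_mul] at h1
  rw [coe_unitsNorm, ← h1]
  exact dvd_mul_right _ _

/-- At a ramified prime `Q` (prime degree `p`), the norm of an integer `α` is congruent to
`α ^ p` modulo `Q`. -/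
theorem normz_aux_norm_sub_pow_mem (hdeg : Module.finrank F N = p) {Q : Ideal (𝓞 N)}
    (hQ : Q.IsPrime) (hram : ¬ UnramifiedAt F N Q) (α : 𝓞 N) :
    algebraMap (𝓞 F) (𝓞 N) (RingOfIntegers.norm F α) - α ^ p ∈ Q := by
  obtain ⟨σ, hσ⟩ := exists_ne_one (p := p) F N hdeg
  have key : algebraMap (𝓞 F) (𝓞 N) (RingOfIntegers.norm F α) =
      ∏ i ∈ Finset.range p, (σ ^ i) • α := by
    apply RingOfIntegers.ext
    rw [RingOfIntegers.coe_algebraMap_norm,
      algebraMap_norm_eq_prod_pow (p := p) F N hdeg hσ (α : N)]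
    have h : ∀ s : Finset ℕ, ((∏ i ∈ s, (σ ^ i) • α : 𝓞 N) : N) = ∏ i ∈ s, (σ ^ i) (α : N) := by
      intro s
      rw [show ((∏ i ∈ s, (σ ^ i) • α : 𝓞 N) : N) =
        algebraMap (𝓞 N) N (∏ i ∈ s, (σ ^ i) • α) from rfl, map_prod]
      rfl
    exact (h _).symm
  rw [key, ← Ideal.Quotient.eq, map_prod, map_pow]
  have h2 : ∀ i ∈ Finset.range p,
      Ideal.Quotient.mk Q ((σ ^ i) • α) = Ideal.Quotient.mk Q α := by
    intro i _
    rw [Ideal.Quotient.eq]
    exact smul_sub_mem_of_ramified (p := p) F N hdeg hQ hram (σ ^ i) α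
  rw [Finset.prod_congr rfl h2, Finset.prod_const, Finset.card_range]

/-- At a ramified prime `Q | w` (prime degree `p`), the norm `a` of an integer `α ∉ Q` is
prime to `w` and congruent mod `w` to the `p`-th power of some `a' ∉ w`. -/
theorem normz_aux_exists (hdeg : Module.finrank F N = p) {w : Ideal (𝓞 F)} {Q : Ideal (𝓞 N)}
    (hQ : Q.IsPrime) (hQ0 : Q ≠ ⊥) (hQw : Q.LiesOver w) (hram : ¬ UnramifiedAt F N Q)
    {α : 𝓞 N} (hα : α ∉ Q) :
    RingOfIntegers.norm F α ∉ w ∧
      ∃ a' : 𝓞 F, a' ∉ w ∧ RingOfIntegers.norm F α - a' ^ p ∈ w := by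
  have hmem : ∀ x : 𝓞 F, x ∈ w ↔ algebraMap (𝓞 F) (𝓞 N) x ∈ Q := by
    intro x
    rw [hQw.over, Ideal.under_def, Ideal.mem_comap]
  have h1 := normz_aux_norm_sub_pow_mem (p := p) F N hdeg hQ hram α
  obtain ⟨a', ha'⟩ := exists_sub_mem_of_ramified (p := p) F N hdeg hQ hQ0 hram α
  refine ⟨?_, a', ?_, ?_⟩
  · intro ha
    rw [hmem] at ha
    have h2 : α ^ p ∈ Q := by
      have := Q.sub_mem ha h1
      simpa using this
    exact hα (hQ.mem_of_pow_mem p h2)
  · intro ha
    rw [hmem] at ha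
    have h2 : α ∈ Q := by
      have := Q.add_mem ha' ha
      simpa using this
    exact hα h2
  · rw [hmem, map_sub, map_pow]
    have h3 : α ^ p - algebraMap (𝓞 F) (𝓞 N) a' ^ p ∈ Q := by
      rw [← Ideal.Quotient.eq, map_pow, map_pow]
      congr 1
      rw [Ideal.Quotient.eq]
      exact ha'
    have := Q.add_mem h1 h3
    simpa using this

/-- `w` ramified, `z` a unit at the primes above `w`: `N z` is a `p`-th power residue mod `w`
(`N z ≡ z^p` modulo the prime above `w`, and the residue field does not grow). -/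
theorem isPthRes_unitsNorm (hdeg : Module.finrank F N = p) {w : Ideal (𝓞 F)} (hw : w.IsPrime)
    (hw0 : w ≠ ⊥) (hram : IsRam F N w) (z : Nˣ)
    (hz : ∀ Q : Ideal (𝓞 N), Q.IsPrime → Q.LiesOver w → ord N Q (z : N) = 0) :
    IsPthRes F p w ((unitsNorm F N z : Fˣ) : F) := by
  obtain ⟨Q, hQ, hQw, hQram⟩ := hram
  have hQ0 : Q ≠ ⊥ := ne_bot_of_liesOver F N hw0 hQw
  obtain ⟨α, β, hα, hβ, hzαβ⟩ :=
    exists_frac_of_ord_eq_zero N hQ hQ0 z.ne_zero (hz Q hQ hQw)
  obtain ⟨ha, a', ha', haa'⟩ := normz_aux_exists (p := p) F N hdeg hQ hQ0 hQw hQram hα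
  obtain ⟨hb, b', hb', hbb'⟩ := normz_aux_exists (p := p) F N hdeg hQ hQ0 hQw hQram hβ
  have hwmax : w.IsMaximal := Ideal.IsPrime.isMaximal hw hw0
  obtain ⟨b'', i, hi, hb''⟩ := hwmax.exists_inv hb'
  refine ⟨RingOfIntegers.norm F α, RingOfIntegers.norm F β, a' * b'', ha, hb, ?_, ?_⟩
  · rw [← Ideal.Quotient.eq] at haa' hbb' ⊢
    have h1 : Ideal.Quotient.mk w b'' * Ideal.Quotient.mk w b' = 1 := by
      have h2 : Ideal.Quotient.mk w (b'' * b' + i) = Ideal.Quotient.mk w 1 := by rw [hb'']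
      rw [map_add, map_mul, map_one, Ideal.Quotient.eq_zero_iff_mem.mpr hi, add_zero] at h2
      exact h2
    rw [haa', map_mul, hbb', map_pow, map_pow, map_pow, map_mul]
    calc Ideal.Quotient.mk w a' ^ p
        = (Ideal.Quotient.mk w b'' * Ideal.Quotient.mk w b') ^ p * Ideal.Quotient.mk w a' ^ p := by
          rw [h1, one_pow, one_mul]
      _ = Ideal.Quotient.mk w b' ^ p * (Ideal.Quotient.mk w a' * Ideal.Quotient.mk w b'') ^ p := by
          ring
  · rw [coe_unitsNorm]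
    change Algebra.norm F (z : N) * Algebra.norm F (algebraMap (𝓞 N) N β) =
      Algebra.norm F (algebraMap (𝓞 N) N α)
    rw [← map_mul, hzαβ]

end Fermat.Agent.S14.FirstIneq
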