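import Fermat.Agent.S14.FirstIneq.Defs

/-!
# S14 / FirstIneq / Places : number of infinite places in a degree `p` extension of a
totally complex field.  Statement FROZEN (helper12).
-/

set_option autoImplicit false
set_option linter.unusedSectionVars false

namespace Fermat.Agent.S14.FirstIneq

open NumberField

universe u v

variable {p : ℕ} [Fact p.Prime]
variable (F : Type u) (N : Type v) [Field F] [NumberField F] [Field N] [NumberField N]
  [Algebra F N]

/-- A number field containing a primitive `p`-th root of unity, `p` an odd prime, is totally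
complex. -/
theorem places_aux_isTotallyComplex (K : Type*) [Field K] [NumberField K] (hp : p ≠ 2)
    (hζ : ∃ ζ : K, IsPrimitiveRoot ζ p) : IsTotallyComplex K := by
  obtain ⟨ζ, hζ⟩ := hζ
  have hpp : p.Prime := Fact.out
  have hodd : Odd p := hpp.odd_of_ne_two hp
  refine ⟨fun v => ?_⟩
  rw [← InfinitePlace.not_isReal_iff_isComplex]
  intro hv
  have hφ : ComplexEmbedding.IsReal v.embedding := InfinitePlace.isReal_iff.mp hv
  have h1 : (hφ.embedding ζ) ^ p = (1 : ℝ) ^ p := by
    rw [← map_pow, hζ.pow_eq_one, map_one, one_pow]
  have h2 : hφ.embedding ζ = 1 := hodd.pow_inj.mp h1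
  have h3 : ζ = 1 := hφ.embedding.injective (by rw [h2, map_one])
  have h4 : p = 1 := by
    rw [h3] at hζ
    exact IsPrimitiveRoot.one_left_iff.mp hζ
  exact hpp.one_lt.ne' h4

/-- For a totally complex number field, twice the number of infinite places is the degree. -/
theorem places_aux_two_mul_card (K : Type*) [Field K] [NumberField K] [IsTotallyComplex K] :
    2 * Nat.card (InfinitePlace K) = Module.finrank ℚ K := by
  rw [Nat.card_eq_fintype_card, InfinitePlace.card_eq_nrRealPlaces_add_nrComplexPlaces,
    IsTotallyComplex.nrRealPlaces_eq_zero K, zero_add, IsTotallyComplex.finrank K]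

/-- `F ∋ ζ_p` with `p` odd is totally complex, hence so is `N`, and both have
`[· : ℚ] / 2` infinite places. -/
theorem card_infinitePlace_eq (hp : p ≠ 2) (hζ : ∃ ζ : F, IsPrimitiveRoot ζ p)
    (hdeg : Module.finrank F N = p) :
    Nat.card (InfinitePlace N) = p * Nat.card (InfinitePlace F) := by
  have hF : IsTotallyComplex F := places_aux_isTotallyComplex F hp hζ
  have hN : IsTotallyComplex N := by
    obtain ⟨ζ, hζ⟩ := hζ
    exact places_aux_isTotallyComplex N hp
      ⟨algebraMap F N ζ, hζ.map_of_injective (algebraMap F N).injective⟩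
  have h1 := places_aux_two_mul_card F
  have h2 := places_aux_two_mul_card N
  have h3 : Module.finrank ℚ F * Module.finrank F N = Module.finrank ℚ N :=
    Module.finrank_mul_finrank ℚ F N
  rw [hdeg, ← h1, ← h2] at h3
  have h4 : 2 * Nat.card (InfinitePlace N) = 2 * (p * Nat.card (InfinitePlace F)) := by
    rw [← h3]; ring
  exact Nat.eq_of_mul_eq_mul_left (by norm_num) h4

end Fermat.Agent.S14.FirstIneq
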