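import Fermat.Agent.S14.FirstIneq.Ord
import Fermat.Agent.S14.FirstIneq.SUnit.Basic
import Fermat.Agent.S14.SecondIneq.Units

/-!
# S14 / FirstIneq / SUnit : Dirichlet's `S`-unit theorem in "index of `p`-th powers" form.
Statements FROZEN (helper12).

The index formula is derived from `Fermat.Agent.S14.SecondIneq.sunit_index`; finite generation
and the torsion are proved in `SUnit/Basic.lean`.
-/

set_option autoImplicit false
set_option linter.unusedSectionVars false

namespace Fermat.Agent.S14.FirstIneq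

open NumberField IsDedekindDomain UniqueFactorizationMonoid

variable (K : Type*) [Field K] [NumberField K] (p : ℕ) [Fact p.Prime]

/-- The group of `S`-units is finitely generated (`S` finite). -/
theorem sunits_fg (S : Set (Ideal (𝓞 K))) (hS : S.Finite) : (SUnits K S).FG := by
  have h := SUnit.unit_fg K (SUnit.finite_preimage K hS).toFinset
  rw [Set.Finite.coe_toFinset] at h
  rw [SUnit.sunits_eq_unit]
  exact h

/-- `[U_S : U_S^p] = p ^ (#infinite places + #S)` if `ζ_p ∈ K` (rank `= #places - 1 + #S`, and the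
torsion contributes one more factor `p`). -/
theorem sunits_relIndex_pow (hζ : ∃ ζ : K, IsPrimitiveRoot ζ p) (S : Set (Ideal (𝓞 K)))
    (hS : S.Finite) (hSp : ∀ v ∈ S, v.IsPrime ∧ v ≠ ⊥) :
    ((SUnits K S).map (powMonoidHom p : Kˣ →* Kˣ)).relIndex (SUnits K S)
      = p ^ (Nat.card (InfinitePlace K) + S.ncard) := by
  have hp : p ≠ 0 := (Fact.out : p.Prime).ne_zero
  have h := SecondIneq.sunit_index (p := p) K hζ (SUnit.finite_preimage K hS).toFinset
  have hSU : SecondIneq.SU K (SUnit.finite_preimage K hS).toFinset = SUnits K S := by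
    rw [SUnit.sunits_eq_unit]
    show (((SUnit.finite_preimage K hS).toFinset : Set (HeightOneSpectrum (𝓞 K)))).unit K = _
    rw [Set.Finite.coe_toFinset]
  have hmap : (SUnits K S).map (powMonoidHom p : Kˣ →* Kˣ) =
      SecondIneq.PthPow p K ⊓ SUnits K S := SUnit.map_pow_eq K S hp
  rw [hmap, Subgroup.inf_relIndex_right, ← hSU, h, SUnit.card_preimage K hS hSp,
    Nat.card_eq_fintype_card, add_comm]

/-- The `p`-torsion of the `S`-units is `μ_p`, of order `p` if `ζ_p ∈ K`. -/
theorem sunits_torsion_card (hζ : ∃ ζ : K, IsPrimitiveRoot ζ p) (S : Set (Ideal (𝓞 K))) :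
    Nat.card ↥(SUnits K S ⊓ (powMonoidHom p : Kˣ →* Kˣ).ker) = p := by
  have hp : p ≠ 0 := (Fact.out : p.Prime).ne_zero
  have : NeZero p := ⟨hp⟩
  obtain ⟨ζ, hζ⟩ := hζ
  rw [SUnit.inf_ker_eq K S hp]
  exact hζ.card_rootsOfUnity

end Fermat.Agent.S14.FirstIneq
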