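import Fermat.Agent.S14.FirstIneq.Alg.Main
import Fermat.Agent.S14.FirstIneq.SUnit
import Fermat.Agent.S14.FirstIneq.Places
import Fermat.Agent.S14.FirstIneq.Above
import Fermat.Agent.S14.FirstIneq.Fix
import Fermat.Agent.S14.FirstIneq.H1
import Fermat.Agent.S14.FirstIneq.NormZ
import Fermat.Agent.S14.FirstIneq.Key.Count

/-!
# S14 / FirstIneq / Key : the counting core of the first inequality.  Statement FROZEN (helper12).

`N/F` cyclic of odd prime degree `p`, `ζ_p ∈ F`, unramified outside the finite set `R`; `S` a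
finite class-generating set of primes of `F` disjoint from `R`; `I` = primes of `S` which do not
split completely in `N`; `Rr` = primes of `R` ramified in `N`.  Then the group `U_S` of `S`-units
of `F` contains NO "triangular family" `z_v (v ∈ I)`, `x_w (w ∈ Rr)`:
  `ord_v (z_v) ≡ 1`, `ord_v' (z_v) ≡ 0 (v' ≠ v)`, `z_v` a `p`-th power residue at all `w ∈ Rr`;
  `ord_v (x_w) ≡ 0`, `x_w` a non-residue at `w` and a residue at the other `w' ∈ Rr`.
(Reason: such a family is independent modulo the subgroup `Z ⊇ N(W)` of `U_S` cut out by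
"`p ∣ ord_v` for `v ∈ I`, residue at all `w ∈ Rr`", so `[U_S : N(W)] ≥ p^(#I + #Rr)`, whereas the
Herbrand quotient gives `[U_S : N(W)] · p = h¹ · p^#I ≤ p^(#I + #Rr)`.)
-/

set_option autoImplicit false
set_option linter.unusedSectionVars false

namespace Fermat.Agent.S14.FirstIneq

open NumberField IsDedekindDomain UniqueFactorizationMonoid
open scoped Pointwise

universe u v

variable {p : ℕ} [Fact p.Prime]
variable (F : Type u) (N : Type v) [Field F] [NumberField F] [Field N] [NumberField N]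
  [Algebra F N] [IsGalois F N]

/-- The fixed points of a generator on the `S`-units of `N` are the `S`-units of `F`. -/
theorem key_aux_fix_eq (hdeg : Module.finrank F N = p) {σ₀ : N ≃ₐ[F] N} (hσ₀ : σ₀ ≠ 1)
    (S : Set (Ideal (𝓞 F))) :
    SUnits N (above F N S) ⊓ (delHom (unitsAut F N σ₀)).ker
      = (SUnits F S).map (unitsIncl F N) := by
  ext z
  simp only [Subgroup.mem_inf, MonoidHom.mem_ker, delHom_apply, div_eq_one, Subgroup.mem_map]
  constructor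
  · rintro ⟨hzW, hzk⟩
    obtain ⟨x, rfl⟩ := (mem_range_unitsIncl_iff_of_ne_one F N hdeg hσ₀ z).2 hzk
    exact ⟨x, (unitsIncl_mem_SUnits_iff F N S x).1 hzW, rfl⟩
  · rintro ⟨x, hx, rfl⟩
    exact ⟨(unitsIncl_mem_SUnits_iff F N S x).2 hx,
      (mem_range_unitsIncl_iff_of_ne_one F N hdeg hσ₀ _).1 ⟨x, rfl⟩⟩

/-- The image of the abstract norm `normHom σ p` is the image of the field norm. -/
theorem key_aux_map_norm_eq (hdeg : Module.finrank F N = p) {σ₀ : N ≃ₐ[F] N} (hσ₀ : σ₀ ≠ 1)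
    (W : Subgroup Nˣ) :
    W.map (normHom (unitsAut F N σ₀) p) = (W.map (unitsNorm F N)).map (unitsIncl F N) := by
  rw [Subgroup.map_map]
  congr 1
  exact MonoidHom.ext fun z => (unitsIncl_unitsNorm F N hdeg hσ₀ z).symm

/-- The `p`-th power map commutes with the inclusion. -/
theorem key_aux_map_pow_incl (n : ℕ) (U : Subgroup Fˣ) :
    (U.map (unitsIncl F N)).map (powMonoidHom n : Nˣ →* Nˣ)
      = (U.map (powMonoidHom n : Fˣ →* Fˣ)).map (unitsIncl F N) := by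
  rw [Subgroup.map_map, Subgroup.map_map]
  congr 1
  exact MonoidHom.ext fun z => (map_pow (unitsIncl F N) z n).symm

/-- The `n`-torsion of the image of `U` is the image of the `n`-torsion. -/
theorem key_aux_map_inf_ker (n : ℕ) (U : Subgroup Fˣ) :
    U.map (unitsIncl F N) ⊓ (powMonoidHom n : Nˣ →* Nˣ).ker
      = (U ⊓ (powMonoidHom n : Fˣ →* Fˣ).ker).map (unitsIncl F N) := by
  ext z
  simp only [Subgroup.mem_inf, MonoidHom.mem_ker, powMonoidHom_apply, Subgroup.mem_map]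
  constructor
  · rintro ⟨⟨x, hx, rfl⟩, hz⟩
    refine ⟨x, ⟨hx, ?_⟩, rfl⟩
    apply unitsIncl_injective F N
    rw [map_pow, hz, map_one]
  · rintro ⟨x, ⟨hx, hxn⟩, rfl⟩
    exact ⟨⟨x, hx, rfl⟩, by rw [← map_pow, hxn, map_one]⟩

/-- The arithmetic at the end of the Herbrand quotient computation. -/
theorem key_aux_arith (p h0 h1 r a s i c : ℕ) (hp : 2 ≤ p)
    (ha : a + (p - 1) * i = p * s)
    (hmain : h0 ^ (p - 1) * p ^ (p * r + a) * p ^ p = h1 ^ (p - 1) * (p ^ (r + s)) ^ p * p)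
    (hh1 : h1 ≤ p ^ c) : h0 * p ≤ p ^ (i + c) := by
  have hp0 : 0 < p := by omega
  have hk : p - 1 ≠ 0 := by omega
  have h2 : (h0 * p) ^ (p - 1) * p ^ (p * r + a + 1)
      = h0 ^ (p - 1) * p ^ (p * r + a) * p ^ p := by
    rw [mul_pow, mul_assoc, mul_assoc, ← pow_add, ← pow_add]
    congr 2
    omega
  have h3 : (h1 * p ^ i) ^ (p - 1) * p ^ (p * r + a + 1)
      = h1 ^ (p - 1) * (p ^ (r + s)) ^ p * p := by
    rw [mul_pow, ← pow_mul, ← pow_mul, mul_assoc, mul_assoc, ← pow_add, ← pow_succ]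
    congr 2
    calc i * (p - 1) + (p * r + a + 1) = p * r + (a + (p - 1) * i) + 1 := by ring
      _ = p * r + p * s + 1 := by rw [ha]
      _ = (r + s) * p + 1 := by ring
  have e1 : (h0 * p) ^ (p - 1) * p ^ (p * r + a + 1)
      = (h1 * p ^ i) ^ (p - 1) * p ^ (p * r + a + 1) := by
    rw [h2, h3, hmain]
  have e2 : (h0 * p) ^ (p - 1) = (h1 * p ^ i) ^ (p - 1) :=
    Nat.eq_of_mul_eq_mul_right (pow_pos hp0 _) e1
  have e3 : h0 * p = h1 * p ^ i := Nat.pow_left_injective hk e2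
  rw [e3, add_comm, pow_add]
  exact Nat.mul_le_mul_right _ hh1

/-- The index computation: `[U_S : N(W)] · p ≤ p ^ (#I + #Rr)` and the index is finite. -/
theorem norm_index_bound (hp : p ≠ 2) (hζ : ∃ ζ : F, IsPrimitiveRoot ζ p)
    (hdeg : Module.finrank F N = p)
    (R : Finset (Ideal (𝓞 F))) (hR : ∀ w ∈ R, w.IsPrime ∧ w ≠ ⊥)
    (hram : ∀ Q : Ideal (𝓞 N), Q.IsPrime → Q ≠ ⊥ → Q.under (𝓞 F) ∉ R → UnramifiedAt F N Q)
    (S : Finset (Ideal (𝓞 F))) (hS : ∀ v ∈ S, v.IsPrime ∧ v ≠ ⊥ ∧ v ∉ R)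
    (hgen : ClassGen F (S : Set (Ideal (𝓞 F))))
    (I : Finset (Ideal (𝓞 F))) (hI : ∀ v, v ∈ I ↔ v ∈ S ∧ ¬ SplitsCompletely F N v)
    (Rr : Finset (Ideal (𝓞 F))) (hRr : ∀ w, w ∈ Rr ↔ w ∈ R ∧ IsRam F N w) :
    ((SUnits N (above F N (S : Set (Ideal (𝓞 F))))).map (unitsNorm F N)).relIndex
        (SUnits F (S : Set (Ideal (𝓞 F)))) ≠ 0 ∧
    ((SUnits N (above F N (S : Set (Ideal (𝓞 F))))).map (unitsNorm F N)).relIndex
        (SUnits F (S : Set (Ideal (𝓞 F)))) * p ≤ p ^ (I.card + Rr.card) := by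
  obtain ⟨σ₀, hσ₀⟩ := exists_ne_one F N hdeg
  have hSp : ∀ v ∈ (S : Set (Ideal (𝓞 F))), v.IsPrime ∧ v ≠ ⊥ :=
    fun v hv => ⟨(hS v hv).1, (hS v hv).2.1⟩
  have hSp' : ∀ v ∈ S, v.IsPrime ∧ v ≠ ⊥ := fun v hv => ⟨(hS v hv).1, (hS v hv).2.1⟩
  have hSfin : (S : Set (Ideal (𝓞 F))).Finite := S.finite_toSet
  have hab_fin := above_finite F N _ hSfin hSp
  have hab_p := above_isPrime_ne_bot F N _ hSp
  have hζN : ∃ ζ : N, IsPrimitiveRoot ζ p := by
    obtain ⟨ζ, hζ'⟩ := hζ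
    exact ⟨algebraMap F N ζ, hζ'.map_of_injective (algebraMap F N).injective⟩
  have hinj := unitsIncl_injective F N
  obtain ⟨h0ne, h1ne, hmain⟩ := herbrand_main p (unitsAut F N σ₀)
    (SUnits N (above F N (S : Set (Ideal (𝓞 F))))) (sunits_fg N _ hab_fin)
    (fun x hx => unitsAut_mem_SUnits F N _ σ₀ hx)
    (fun x _ => unitsAut_iterate_card F N hdeg σ₀ x)
  have hfix := key_aux_fix_eq F N hdeg hσ₀ (S : Set (Ideal (𝓞 F)))
  have hnorm := key_aux_map_norm_eq F N hdeg hσ₀ (SUnits N (above F N (S : Set (Ideal (𝓞 F)))))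
  -- identify the terms
  have e0 : ((SUnits N (above F N (S : Set (Ideal (𝓞 F))))).map
      (normHom (unitsAut F N σ₀) p)).relIndex
        (SUnits N (above F N (S : Set (Ideal (𝓞 F)))) ⊓ (delHom (unitsAut F N σ₀)).ker)
      = ((SUnits N (above F N (S : Set (Ideal (𝓞 F))))).map (unitsNorm F N)).relIndex
        (SUnits F (S : Set (Ideal (𝓞 F)))) := by
    rw [hfix, hnorm, Subgroup.relIndex_map_map_of_injective _ _ hinj]
  have eW : ((SUnits N (above F N (S : Set (Ideal (𝓞 F))))).map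
      (powMonoidHom p : Nˣ →* Nˣ)).relIndex (SUnits N (above F N (S : Set (Ideal (𝓞 F)))))
      = p ^ (p * Nat.card (InfinitePlace F) + (above F N (S : Set (Ideal (𝓞 F)))).ncard) := by
    rw [sunits_relIndex_pow N p hζN _ hab_fin hab_p, card_infinitePlace_eq F N hp hζ hdeg]
  have eT : Nat.card ↥(SUnits N (above F N (S : Set (Ideal (𝓞 F))))
      ⊓ (delHom (unitsAut F N σ₀)).ker ⊓ (powMonoidHom p : Nˣ →* Nˣ).ker) = p := by
    rw [hfix, key_aux_map_inf_ker, Subgroup.card_map_of_injective hinj]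
    exact sunits_torsion_card F p hζ _
  have eF : ((SUnits N (above F N (S : Set (Ideal (𝓞 F)))) ⊓ (delHom (unitsAut F N σ₀)).ker).map
      (powMonoidHom p : Nˣ →* Nˣ)).relIndex
        (SUnits N (above F N (S : Set (Ideal (𝓞 F)))) ⊓ (delHom (unitsAut F N σ₀)).ker)
      = p ^ (Nat.card (InfinitePlace F) + S.card) := by
    rw [hfix, key_aux_map_pow_incl, Subgroup.relIndex_map_map_of_injective _ _ hinj,
      sunits_relIndex_pow F p hζ _ hSfin hSp, Set.ncard_coe_finset]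
  have eN : Nat.card ↥(SUnits N (above F N (S : Set (Ideal (𝓞 F))))
      ⊓ (powMonoidHom p : Nˣ →* Nˣ).ker) = p := sunits_torsion_card N p hζN _
  have hh1 := h1_bound F N hdeg R hR hram S hS hgen Rr hRr hσ₀
  have ha := above_ncard F N hdeg S hSp' I hI
  rw [e0, eW, eT, eF, eN] at hmain
  rw [e0] at h0ne
  exact ⟨h0ne, key_aux_arith p _ _ _ _ _ _ _ (Fact.out : p.Prime).two_le ha hmain hh1⟩

theorem key (hp : p ≠ 2) (hζ : ∃ ζ : F, IsPrimitiveRoot ζ p)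
    (hdeg : Module.finrank F N = p)
    (R : Finset (Ideal (𝓞 F))) (hR : ∀ w ∈ R, w.IsPrime ∧ w ≠ ⊥)
    (hram : ∀ Q : Ideal (𝓞 N), Q.IsPrime → Q ≠ ⊥ → Q.under (𝓞 F) ∉ R → UnramifiedAt F N Q)
    (S : Finset (Ideal (𝓞 F))) (hS : ∀ v ∈ S, v.IsPrime ∧ v ≠ ⊥ ∧ v ∉ R)
    (hgen : ClassGen F (S : Set (Ideal (𝓞 F))))
    (I : Finset (Ideal (𝓞 F))) (hI : ∀ v, v ∈ I ↔ v ∈ S ∧ ¬ SplitsCompletely F N v)
    (Rr : Finset (Ideal (𝓞 F))) (hRr : ∀ w, w ∈ Rr ↔ w ∈ R ∧ IsRam F N w)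
    (z x : Ideal (𝓞 F) → Fˣ)
    (hzS : ∀ v ∈ I, z v ∈ SUnits F (S : Set (Ideal (𝓞 F))))
    (hxS : ∀ w ∈ Rr, x w ∈ SUnits F (S : Set (Ideal (𝓞 F))))
    (hz1 : ∀ v ∈ I, (p : ℤ) ∣ ord F v (z v : F) - 1)
    (hz1' : ∀ v ∈ I, ∀ v' ∈ I, v' ≠ v → (p : ℤ) ∣ ord F v' (z v : F))
    (hz2 : ∀ v ∈ I, ∀ w ∈ Rr, IsPthRes F p w (z v : F))
    (hx1 : ∀ w ∈ Rr, ∀ v ∈ I, (p : ℤ) ∣ ord F v (x w : F))
    (hx2 : ∀ w ∈ Rr, ¬ IsPthRes F p w (x w : F))
    (hx3 : ∀ w ∈ Rr, ∀ w' ∈ Rr, w' ≠ w → IsPthRes F p w' (x w : F)) : False :=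
  key_aux_key_of_bound F N hdeg R hR hram S hS I hI Rr hRr
    (norm_index_bound F N hp hζ hdeg R hR hram S hS hgen I hI Rr hRr)
    z x hzS hxS hz1 hz1' hz2 hx1 hx2 hx3

end Fermat.Agent.S14.FirstIneq
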