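import Fermat.Agent.S14.FirstIneq.Key
import Fermat.Agent.S14.FirstIneq.ClassGen
import Fermat.Agent.S14.FirstIneq.Main.Dichotomy
import Fermat.Agent.S14.FirstIneq.Main.Clean

/-!
# S14 / FirstIneq / Main : the first inequality in functional form (= the body of
`Fermat.Agent.S14.firstInequality`).  Statement FROZEN (helper12).
-/

set_option autoImplicit false
set_option linter.unusedSectionVars false

namespace Fermat.Agent.S14.FirstIneq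

open NumberField IsDedekindDomain UniqueFactorizationMonoid
open scoped Pointwise

/-- `SUnits` is monotone in the set of primes. -/
theorem main_aux_SUnits_mono (K : Type*) [Field K] [NumberField K] {S S' : Set (Ideal (𝓞 K))}
    (h : S ⊆ S') : SUnits K S ≤ SUnits K S' := by
  intro x hx
  change ∀ v : HeightOneSpectrum (𝓞 K), v.asIdeal ∉ S' → v.valuation K (x : K) = 1
  intro v hv
  exact hx v (fun hvS => hv (h hvS))

/-- Given the "dual family" `zz`, for each `w ∈ R` there is an element which is a non-residue at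
`w`, a residue at the other elements of `R`, a unit at `R`, with all valuations outside `A`
divisible by `p`. -/
theorem main_aux_x {p : ℕ} [Fact p.Prime] (F : Type*) [Field F] [NumberField F]
    (hζ : ∃ ζ : F, IsPrimitiveRoot ζ p)
    (R : Finset (Ideal (𝓞 F)))
    (hR : ∀ w ∈ R, w.IsPrime ∧ w ≠ ⊥ ∧ ((p : ℕ) : 𝓞 F) ∉ w)
    (A : Set (Ideal (𝓞 F))) (hA : ∀ v : Ideal (𝓞 F), v ∉ A → v.IsPrime ∧ v ≠ ⊥)
    (zz : Ideal (𝓞 F) → Fˣ)
    (hzz1 : ∀ u : Ideal (𝓞 F), u ∉ A → ∀ w ∈ R, IsPthRes F p w (zz u : F))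
    (hzz2 : ∀ u : Ideal (𝓞 F), u ∉ A → ((ord F u (zz u : F) : ℤ) : ZMod p) = 1)
    (hzz3 : ∀ u : Ideal (𝓞 F), u ∉ A → ∀ u' : Ideal (𝓞 F), u' ∉ A → u' ≠ u →
      ((ord F u' (zz u : F) : ℤ) : ZMod p) = 0)
    {w : Ideal (𝓞 F)} (hw : w ∈ R) :
    ∃ x1 : Fˣ, (∀ u : Ideal (𝓞 F), u ∉ A → (p : ℤ) ∣ ord F u (x1 : F)) ∧
      (∀ w' ∈ R, ord F w' (x1 : F) = 0) ∧ ¬ IsPthRes F p w (x1 : F) ∧
      ∀ w' ∈ R, w' ≠ w → IsPthRes F p w' (x1 : F) := by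
  classical
  obtain ⟨x0, hx0, hx0R, hx0w, hx0w'⟩ := exists_nonres F p hζ R hR hw
  have hx0F : algebraMap (𝓞 F) F x0 ≠ 0 := by
    intro h
    exact hx0 (FaithfulSMul.algebraMap_injective (𝓞 F) F (by rw [h, map_zero]))
  set y0 : F := algebraMap (𝓞 F) F x0 with hy0
  set P : Finset (Ideal (𝓞 F)) :=
    (finite_ord_ne_zero F y0).toFinset.filter (fun u => u ∉ A) with hP
  have hPA : ∀ u ∈ P, u ∉ A := fun u hu => (Finset.mem_filter.1 hu).2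
  have hPmem : ∀ u : Ideal (𝓞 F), u ∉ A → u ∉ P → ord F u y0 = 0 := by
    intro u hu huP
    by_contra h0
    exact huP (Finset.mem_filter.2
      ⟨(Set.Finite.mem_toFinset _).2 ⟨(hA u hu).1, (hA u hu).2, h0⟩, hu⟩)
  set Pi0 : F := ∏ u ∈ P, (zz u : F) ^ (-(ord F u y0)) with hPi
  have hfac : ∀ u ∈ P, (zz u : F) ^ (-(ord F u y0)) ≠ 0 :=
    fun u _ => zpow_ne_zero _ (zz u).ne_zero
  have hPi0 : Pi0 ≠ 0 := Finset.prod_ne_zero_iff.2 hfac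
  have hPires : ∀ w' ∈ R, IsPthRes F p w' Pi0 := by
    intro w' hw'
    exact IsPthRes.prod F p (hR w' hw').1 P _ (fun u hu =>
      IsPthRes.zpow F p (hR w' hw').1 (hR w' hw').2.1 (hzz1 u (hPA u hu) w' hw') _)
  refine ⟨Units.mk0 (y0 * Pi0) (mul_ne_zero hx0F hPi0), ?_, ?_, ?_, ?_⟩
  · intro u' hu'
    rw [Units.val_mk0, ord_mul F u' hx0F hPi0, hPi, ord_prod F u' P _ hfac,
      ← ZMod.intCast_zmod_eq_zero_iff_dvd]
    have key : ∀ u ∈ P, ((ord F u' ((zz u : F) ^ (-(ord F u y0))) : ℤ) : ZMod p) =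
        if u = u' then -((ord F u' y0 : ℤ) : ZMod p) else 0 := by
      intro u hu
      rw [ord_zpow]
      push_cast
      split_ifs with h
      · subst h
        rw [hzz2 u hu']
        ring
      · rw [hzz3 u (hPA u hu) u' hu' (Ne.symm h)]
        ring
    rw [Int.cast_add, Int.cast_sum, Finset.sum_congr rfl key, Finset.sum_ite_eq']
    split_ifs with h
    · ring
    · rw [hPmem u' hu' h]
      simp
  · intro w' hw'
    rw [Units.val_mk0, ord_mul F w' hx0F hPi0,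
      ord_eq_zero_of_notMem F (hR w' hw').1 (hR w' hw').2.1 (hx0R w' hw'),
      IsPthRes.ord_eq_zero F p (hR w' hw').1 (hR w' hw').2.1 (hPires w' hw'), add_zero]
  · intro h
    rw [Units.val_mk0] at h
    apply hx0w
    have h2 := IsPthRes.div F p (hR w hw).1 (hR w hw).2.1 h (hPires w hw)
    rwa [mul_div_cancel_right₀ _ hPi0] at h2
  · intro w' hw' hne
    rw [Units.val_mk0]
    exact IsPthRes.mul F p (hR w' hw').1 (hx0w' w' hw' hne) (hPires w' hw')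

/-- The second alternative of the dichotomy (existence of the "dual family") is impossible:
after cleaning, it yields a triangular family of `S`-units contradicting `key`. -/
theorem main_aux_false {p : ℕ} [Fact p.Prime] (hp : p ≠ 2)
    (F N : Type*) [Field F] [NumberField F] [Field N] [NumberField N] [Algebra F N] [IsGalois F N]
    (hζ : ∃ ζ : F, IsPrimitiveRoot ζ p) (hdeg : Module.finrank F N = p)
    (R : Finset (Ideal (𝓞 F)))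
    (hR : ∀ w ∈ R, w.IsPrime ∧ w ≠ ⊥ ∧ ((p : ℕ) : 𝓞 F) ∉ w)
    (hram : ∀ Q : Ideal (𝓞 N), Q.IsPrime → Q ≠ ⊥ → Q.under (𝓞 F) ∉ R → UnramifiedAt F N Q)
    (A : Set (Ideal (𝓞 F)))
    (hA : ∀ v : Ideal (𝓞 F), v ∉ A ↔ (v.IsPrime ∧ v ≠ ⊥ ∧ v ∉ R ∧ ¬ SplitsCompletely F N v))
    (hz : ∀ u : Ideal (𝓞 F), u ∉ A → ∃ z : Fˣ,
        (∀ w ∈ R, IsPthRes F p w (z : F)) ∧
        ((ord F u (z : F) : ℤ) : ZMod p) = 1 ∧
        (∀ u' : Ideal (𝓞 F), u' ∉ A → u' ≠ u → ((ord F u' (z : F) : ℤ) : ZMod p) = 0)) :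
    False := by
  classical
  have hR' : ∀ w ∈ R, w.IsPrime ∧ w ≠ ⊥ := fun w hw => ⟨(hR w hw).1, (hR w hw).2.1⟩
  have hA' : ∀ v : Ideal (𝓞 F), v ∉ A → v.IsPrime ∧ v ≠ ⊥ :=
    fun v hv => ⟨((hA v).1 hv).1, ((hA v).1 hv).2.1⟩
  obtain ⟨S₀, hS₀, hgen₀⟩ := exists_classGen F R hR'
  choose! zz hzz1 hzz2 hzz3 using hz
  -- the cleaned `z`'s
  have hcz : ∀ v : Ideal (𝓞 F), v ∈ S₀ → ¬ SplitsCompletely F N v →
      ∃ (z' : Fˣ) (T : Finset (Ideal (𝓞 F))),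
        (∀ q ∈ T, q.IsPrime ∧ q ≠ ⊥ ∧ q ∉ R ∧ SplitsCompletely F N q) ∧
        z' ∈ SUnits F ((S₀ : Set (Ideal (𝓞 F))) ∪ (T : Set (Ideal (𝓞 F)))) ∧
        (∀ u : Ideal (𝓞 F), (p : ℤ) ∣ ord F u (z' : F) - ord F u (zz v : F)) ∧
        (∀ w ∈ R, (IsPthRes F p w (z' : F) ↔ IsPthRes F p w (zz v : F))) := by
    intro v hv hvs
    have hvA : v ∉ A := (hA v).2 ⟨(hS₀ v hv).1, (hS₀ v hv).2.1, (hS₀ v hv).2.2, hvs⟩
    refine main_aux_clean F N R hR' S₀ hS₀ hgen₀ (zz v) ?_ ?_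
    · intro w hw
      exact IsPthRes.ord_eq_zero F p (hR' w hw).1 (hR' w hw).2 (hzz1 v hvA w hw)
    · intro u hu1 hu2 hu3 hu4 hu5
      have huA : u ∉ A := (hA u).2 ⟨hu1, hu2, hu3, hu4⟩
      have hne : u ≠ v := fun h => hu5 (h ▸ hv)
      exact (ZMod.intCast_zmod_eq_zero_iff_dvd _ p).1 (hzz3 v hvA u huA hne)
  choose! z' Tz hTz hz'S hz'ord hz'res using hcz
  -- the cleaned `x`'s
  have hcx : ∀ w : Ideal (𝓞 F), w ∈ R →
      ∃ (x' : Fˣ) (T : Finset (Ideal (𝓞 F))),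
        (∀ q ∈ T, q.IsPrime ∧ q ≠ ⊥ ∧ q ∉ R ∧ SplitsCompletely F N q) ∧
        x' ∈ SUnits F ((S₀ : Set (Ideal (𝓞 F))) ∪ (T : Set (Ideal (𝓞 F)))) ∧
        (∀ u : Ideal (𝓞 F), u ∉ A → (p : ℤ) ∣ ord F u (x' : F)) ∧
        ¬ IsPthRes F p w (x' : F) ∧
        (∀ w' ∈ R, w' ≠ w → IsPthRes F p w' (x' : F)) := by
    intro w hw
    obtain ⟨x1, hx1A, hx1R, hx1w, hx1w'⟩ := main_aux_x F hζ R hR A hA' zz hzz1 hzz2 hzz3 hw
    obtain ⟨x', T, hT, hx'S, hx'ord, hx'res⟩ := main_aux_clean F N R hR' S₀ hS₀ hgen₀ x1 hx1R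
      (fun u hu1 hu2 hu3 hu4 _ => hx1A u ((hA u).2 ⟨hu1, hu2, hu3, hu4⟩))
    refine ⟨x', T, hT, hx'S, ?_, ?_, ?_⟩
    · intro u hu
      have h := dvd_add (hx'ord u) (hx1A u hu)
      rwa [sub_add_cancel] at h
    · intro h
      exact hx1w ((hx'res w hw).1 h)
    · intro w' hw' hne
      exact (hx'res w' hw').2 (hx1w' w' hw' hne)
  choose! x' Tx hTx hx'S hx'ord hx'w hx'w' using hcx
  -- the sets `S`, `I`, `Rr`
  set I₀ : Finset (Ideal (𝓞 F)) := S₀.filter (fun v => ¬ SplitsCompletely F N v) with hI₀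
  set S : Finset (Ideal (𝓞 F)) := S₀ ∪ I₀.biUnion Tz ∪ R.biUnion Tx with hSdef
  have hS₀S : S₀ ⊆ S := by
    intro v hv
    rw [hSdef, Finset.mem_union, Finset.mem_union]
    exact Or.inl (Or.inl hv)
  have hTzS : ∀ v ∈ S₀, ¬ SplitsCompletely F N v → Tz v ⊆ S := by
    intro v hv hvs q hq
    rw [hSdef, Finset.mem_union, Finset.mem_union]
    exact Or.inl (Or.inr (Finset.mem_biUnion.2 ⟨v, Finset.mem_filter.2 ⟨hv, hvs⟩, hq⟩))
  have hTxS : ∀ w ∈ R, Tx w ⊆ S := by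
    intro w hw q hq
    rw [hSdef, Finset.mem_union]
    exact Or.inr (Finset.mem_biUnion.2 ⟨w, hw, hq⟩)
  have hSmem : ∀ v ∈ S, v ∈ S₀ ∨ (v.IsPrime ∧ v ≠ ⊥ ∧ v ∉ R ∧ SplitsCompletely F N v) := by
    intro v hv
    rw [hSdef, Finset.mem_union, Finset.mem_union, Finset.mem_biUnion, Finset.mem_biUnion] at hv
    rcases hv with (hv | ⟨q, hq, hv⟩) | ⟨w, hw, hv⟩
    · exact Or.inl hv
    · have hq' := Finset.mem_filter.1 hq
      exact Or.inr (hTz q hq'.1 hq'.2 v hv)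
    · exact Or.inr (hTx w hw v hv)
  have hS : ∀ v ∈ S, v.IsPrime ∧ v ≠ ⊥ ∧ v ∉ R := by
    intro v hv
    rcases hSmem v hv with h | h
    · exact hS₀ v h
    · exact ⟨h.1, h.2.1, h.2.2.1⟩
  have hgen : ClassGen F (S : Set (Ideal (𝓞 F))) :=
    classGen_mono F (Finset.coe_subset.2 hS₀S) hgen₀
  set I : Finset (Ideal (𝓞 F)) := S.filter (fun v => ¬ SplitsCompletely F N v) with hIdef
  have hI : ∀ v, v ∈ I ↔ v ∈ S ∧ ¬ SplitsCompletely F N v := fun v => Finset.mem_filter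
  set Rr : Finset (Ideal (𝓞 F)) := R.filter (fun w => IsRam F N w) with hRrdef
  have hRr : ∀ w, w ∈ Rr ↔ w ∈ R ∧ IsRam F N w := fun w => Finset.mem_filter
  have hI0 : ∀ v ∈ I, v ∈ S₀ ∧ ¬ SplitsCompletely F N v ∧ v ∉ A := by
    intro v hv
    obtain ⟨hvS, hvs⟩ := (hI v).1 hv
    rcases hSmem v hvS with h | h
    · exact ⟨h, hvs, (hA v).2 ⟨(hS₀ v h).1, (hS₀ v h).2.1, (hS₀ v h).2.2, hvs⟩⟩
    · exact absurd h.2.2.2 hvs
  refine key F N hp hζ hdeg R hR' hram S hS hgen I hI Rr hRr z' x' ?_ ?_ ?_ ?_ ?_ ?_ ?_ ?_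
  · -- `z' v` is an `S`-unit
    intro v hv
    obtain ⟨hv0, hvs, hvA⟩ := hI0 v hv
    refine main_aux_SUnits_mono F ?_ (hz'S v hv0 hvs)
    exact Set.union_subset (Finset.coe_subset.2 hS₀S) (Finset.coe_subset.2 (hTzS v hv0 hvs))
  · -- `x' w` is an `S`-unit
    intro w hw
    have hwR := ((hRr w).1 hw).1
    refine main_aux_SUnits_mono F ?_ (hx'S w hwR)
    exact Set.union_subset (Finset.coe_subset.2 hS₀S) (Finset.coe_subset.2 (hTxS w hwR))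
  · -- `ord_v (z' v) ≡ 1`
    intro v hv
    obtain ⟨hv0, hvs, hvA⟩ := hI0 v hv
    have h1 := hz'ord v hv0 hvs v
    have h2 : (p : ℤ) ∣ ord F v (zz v : F) - 1 := by
      rw [← ZMod.intCast_zmod_eq_zero_iff_dvd, Int.cast_sub, hzz2 v hvA, Int.cast_one, sub_self]
    have h := dvd_add h1 h2
    rwa [sub_add_sub_cancel] at h
  · -- `ord_v' (z' v) ≡ 0`
    intro v hv v' hv' hne
    obtain ⟨hv0, hvs, hvA⟩ := hI0 v hv
    obtain ⟨hv0', hvs', hvA'⟩ := hI0 v' hv'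
    have h1 := hz'ord v hv0 hvs v'
    have h2 : (p : ℤ) ∣ ord F v' (zz v : F) :=
      (ZMod.intCast_zmod_eq_zero_iff_dvd _ p).1 (hzz3 v hvA v' hvA' hne)
    have h := dvd_add h1 h2
    rwa [sub_add_cancel] at h
  · -- `z' v` is a residue at `Rr`
    intro v hv w hw
    obtain ⟨hv0, hvs, hvA⟩ := hI0 v hv
    have hwR := ((hRr w).1 hw).1
    exact (hz'res v hv0 hvs w hwR).2 (hzz1 v hvA w hwR)
  · -- `p ∣ ord_v (x' w)`
    intro w hw v hv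
    exact hx'ord w ((hRr w).1 hw).1 v (hI0 v hv).2.2
  · -- `x' w` is a non-residue at `w`
    intro w hw
    exact hx'w w ((hRr w).1 hw).1
  · -- `x' w` is a residue at the other `w'`
    intro w hw w' hw' hne
    exact hx'w' w ((hRr w).1 hw).1 w' ((hRr w').1 hw').1 hne

theorem main {p : ℕ} [Fact p.Prime] (hp : p ≠ 2)
    (F N : Type*) [Field F] [NumberField F] [Field N] [NumberField N] [Algebra F N] [IsGalois F N]
    (hζ : ∃ ζ : F, IsPrimitiveRoot ζ p) (hdeg : Module.finrank F N = p)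
    (R : Finset (Ideal (𝓞 F)))
    (hR : ∀ w ∈ R, w.IsPrime ∧ w ≠ ⊥ ∧ ((p : ℕ) : 𝓞 F) ∉ w)
    (hram : ∀ Q : Ideal (𝓞 N), Q.IsPrime → Q ≠ ⊥ → Q.under (𝓞 F) ∉ R → UnramifiedAt F N Q) :
    ∃ e : Ideal (𝓞 F) → ZMod p,
      (∃ q : Ideal (𝓞 F), q.IsPrime ∧ q ≠ ⊥ ∧ q ∉ R ∧ e q ≠ 0) ∧
      (∀ q : Ideal (𝓞 F), q.IsPrime → q ≠ ⊥ → q ∉ R → SplitsCompletely F N q → e q = 0) ∧
      (∀ y : 𝓞 F, y ≠ 0 → (∀ w ∈ R, y ∉ w ∧ ∃ c : 𝓞 F, y - c ^ p ∈ w) →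
        principalSum F e y = 0) := by
  classical
  have hR' : ∀ w ∈ R, w.IsPrime ∧ w ≠ ⊥ := fun w hw => ⟨(hR w hw).1, (hR w hw).2.1⟩
  set A : Set (Ideal (𝓞 F)) :=
    {v | ¬ (v.IsPrime ∧ v ≠ ⊥ ∧ v ∉ R) ∨ SplitsCompletely F N v} with hAdef
  have hA : ∀ v : Ideal (𝓞 F),
      v ∉ A ↔ (v.IsPrime ∧ v ≠ ⊥ ∧ v ∉ R ∧ ¬ SplitsCompletely F N v) := by
    intro v
    change ¬ (¬ (v.IsPrime ∧ v ≠ ⊥ ∧ v ∉ R) ∨ SplitsCompletely F N v) ↔ _
    tauto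
  rcases main_aux_dichotomy (p := p) F R hR' A
      (fun v hv => ⟨((hA v).1 hv).1, ((hA v).1 hv).2.1⟩) with ⟨e, ⟨q, hqA, hq⟩, he2, he3⟩ | hz
  · refine ⟨e, ⟨q, ((hA q).1 hqA).1, ((hA q).1 hqA).2.1, ((hA q).1 hqA).2.2.1, hq⟩, ?_, he3⟩
    intro q _ _ _ hq4
    exact he2 q (Or.inr hq4)
  · exact (main_aux_false hp F N hζ hdeg R hR hram A hA hz).elim

end Fermat.Agent.S14.FirstIneq
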