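import Fermat.Agent.S14.FirstIneq.Defs

/-!
# S14 / FirstIneq / Ord : basic API of the integer valued valuation `ord K v x`
(one number field).  Statements FROZEN (owner of the skeleton: helper12).
-/

set_option autoImplicit false
set_option linter.unusedSectionVars false

namespace Fermat.Agent.S14.FirstIneq

open NumberField IsDedekindDomain UniqueFactorizationMonoid

variable (K : Type*) [Field K] [NumberField K]

/-! ### Auxiliary lemmas (tag `ord_aux_`) -/

/-- Unfolding of `ord` at a nonzero prime. -/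
theorem ord_aux_eq {v : Ideal (𝓞 K)} (hv : v.IsPrime) (hv0 : v ≠ ⊥) (x : K) :
    ord K v x = - WithZero.log ((HeightOneSpectrum.valuation K
        (⟨v, hv, hv0⟩ : HeightOneSpectrum (𝓞 K))) x) := by
  unfold ord
  rw [dif_pos ⟨hv, hv0⟩]

/-- Unfolding of `ord` in the junk case. -/
theorem ord_aux_junk {v : Ideal (𝓞 K)} (h : ¬ (v.IsPrime ∧ v ≠ ⊥)) (x : K) :
    ord K v x = 0 := by
  unfold ord
  rw [dif_neg h]

/-- `ord` at a bundled prime. -/
theorem ord_aux_eq' (w : HeightOneSpectrum (𝓞 K)) (x : K) :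
    ord K w.asIdeal x = - WithZero.log (w.valuation K x) :=
  ord_aux_eq K w.isPrime w.ne_bot x

/-- The valuation of a nonzero element is nonzero. -/
theorem ord_aux_val_ne_zero (w : HeightOneSpectrum (𝓞 K)) {x : K} (hx : x ≠ 0) :
    w.valuation K x ≠ 0 :=
  (Valuation.ne_zero_iff _).mpr hx

/-! ### The frozen statements -/

theorem ord_zero (v : Ideal (𝓞 K)) : ord K v 0 = 0 := by
  by_cases h : v.IsPrime ∧ v ≠ ⊥
  · rw [ord_aux_eq K h.1 h.2, map_zero, WithZero.log_zero, neg_zero]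
  · exact ord_aux_junk K h 0

theorem ord_one (v : Ideal (𝓞 K)) : ord K v 1 = 0 := by
  by_cases h : v.IsPrime ∧ v ≠ ⊥
  · rw [ord_aux_eq K h.1 h.2, map_one, WithZero.log_one, neg_zero]
  · exact ord_aux_junk K h 1

theorem ord_mul (v : Ideal (𝓞 K)) {x y : K} (hx : x ≠ 0) (hy : y ≠ 0) :
    ord K v (x * y) = ord K v x + ord K v y := by
  by_cases h : v.IsPrime ∧ v ≠ ⊥
  · rw [ord_aux_eq K h.1 h.2, ord_aux_eq K h.1 h.2, ord_aux_eq K h.1 h.2, map_mul,
      WithZero.log_mul (ord_aux_val_ne_zero K _ hx) (ord_aux_val_ne_zero K _ hy), neg_add]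
  · rw [ord_aux_junk K h, ord_aux_junk K h, ord_aux_junk K h, add_zero]

theorem ord_inv (v : Ideal (𝓞 K)) (x : K) : ord K v x⁻¹ = - ord K v x := by
  by_cases h : v.IsPrime ∧ v ≠ ⊥
  · rw [ord_aux_eq K h.1 h.2, ord_aux_eq K h.1 h.2, map_inv₀, WithZero.log_inv]
  · rw [ord_aux_junk K h, ord_aux_junk K h, neg_zero]

theorem ord_div (v : Ideal (𝓞 K)) {x y : K} (hx : x ≠ 0) (hy : y ≠ 0) :
    ord K v (x / y) = ord K v x - ord K v y := by
  rw [div_eq_mul_inv, ord_mul K v hx (inv_ne_zero hy), ord_inv, sub_eq_add_neg]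

theorem ord_pow (v : Ideal (𝓞 K)) (x : K) (n : ℕ) : ord K v (x ^ n) = n * ord K v x := by
  by_cases h : v.IsPrime ∧ v ≠ ⊥
  · rw [ord_aux_eq K h.1 h.2, ord_aux_eq K h.1 h.2, map_pow, WithZero.log_pow, nsmul_eq_mul,
      mul_neg]
  · rw [ord_aux_junk K h, ord_aux_junk K h, mul_zero]

theorem ord_zpow (v : Ideal (𝓞 K)) (x : K) (n : ℤ) : ord K v (x ^ n) = n * ord K v x := by
  by_cases h : v.IsPrime ∧ v ≠ ⊥
  · rw [ord_aux_eq K h.1 h.2, ord_aux_eq K h.1 h.2, map_zpow₀, WithZero.log_zpow, smul_eq_mul,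
      mul_neg]
  · rw [ord_aux_junk K h, ord_aux_junk K h, mul_zero]

theorem ord_prod (v : Ideal (𝓞 K)) {ι : Type*} (s : Finset ι) (f : ι → K)
    (hf : ∀ i ∈ s, f i ≠ 0) : ord K v (∏ i ∈ s, f i) = ∑ i ∈ s, ord K v (f i) := by
  classical
  induction s using Finset.induction_on with
  | empty => simp [ord_one]
  | insert a s ha ih =>
    have hfa : f a ≠ 0 := hf a (Finset.mem_insert_self a s)
    have hfs : ∀ i ∈ s, f i ≠ 0 := fun i hi => hf i (Finset.mem_insert_of_mem hi)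
    have hprod : ∏ i ∈ s, f i ≠ 0 := Finset.prod_ne_zero_iff.mpr hfs
    rw [Finset.prod_insert ha, Finset.sum_insert ha, ord_mul K v hfa hprod, ih hfs]

/-- For a nonzero integer `y`, `ord v y` is the multiplicity of `v` in the factorisation of `(y)`. -/
theorem ord_algebraMap {v : Ideal (𝓞 K)} (hv : v.IsPrime) (hv0 : v ≠ ⊥) {y : 𝓞 K} (hy : y ≠ 0) :
    ord K v (algebraMap (𝓞 K) K y) = ((normalizedFactors (Ideal.span {y})).count v : ℤ) := by
  classical
  have hsy : (Ideal.span {y} : Ideal (𝓞 K)) ≠ 0 := by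
    rw [Ne, Ideal.zero_eq_bot, Ideal.span_singleton_eq_bot]
    exact hy
  rw [ord_aux_eq K hv hv0, HeightOneSpectrum.valuation_of_algebraMap,
    HeightOneSpectrum.intValuation_if_neg _ hy, WithZero.log_exp, neg_neg,
    Ideal.count_associates_factors_eq hsy hv hv0]

theorem ord_nonneg_of_integer (v : Ideal (𝓞 K)) (y : 𝓞 K) :
    0 ≤ ord K v (algebraMap (𝓞 K) K y) := by
  by_cases h : v.IsPrime ∧ v ≠ ⊥
  · by_cases hy : y = 0
    · rw [hy, map_zero, ord_zero]
    · rw [ord_algebraMap K h.1 h.2 hy]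
      exact Int.natCast_nonneg _
  · rw [ord_aux_junk K h]

theorem one_le_ord_iff {v : Ideal (𝓞 K)} (hv : v.IsPrime) (hv0 : v ≠ ⊥) {y : 𝓞 K} (hy : y ≠ 0) :
    1 ≤ ord K v (algebraMap (𝓞 K) K y) ↔ y ∈ v := by
  have hne : (algebraMap (𝓞 K) K y) ≠ 0 := by
    intro h0
    exact hy ((FaithfulSMul.algebraMap_injective (𝓞 K) K) (by rw [h0, map_zero]))
  have key := HeightOneSpectrum.valuation_lt_one_iff_mem (K := K)
    (⟨v, hv, hv0⟩ : HeightOneSpectrum (𝓞 K)) y
  rw [ord_aux_eq K hv hv0]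
  rw [← key, ← WithZero.exp_zero, ← WithZero.log_lt_iff_lt_exp (ord_aux_val_ne_zero K _ hne)]
  constructor
  · intro h
    omega
  · intro h
    omega

theorem ord_eq_zero_of_notMem {v : Ideal (𝓞 K)} (hv : v.IsPrime) (hv0 : v ≠ ⊥) {y : 𝓞 K}
    (hy : y ∉ v) : ord K v (algebraMap (𝓞 K) K y) = 0 := by
  have hy0 : y ≠ 0 := by
    rintro rfl
    exact hy v.zero_mem
  have h1 := ord_nonneg_of_integer K v y
  have h2 := (one_le_ord_iff K hv hv0 hy0).not.mpr hy
  omega

theorem mem_SUnits_iff (S : Set (Ideal (𝓞 K))) (x : Kˣ) :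
    x ∈ SUnits K S ↔
      ∀ v : Ideal (𝓞 K), v.IsPrime → v ≠ ⊥ → v ∉ S → ord K v (x : K) = 0 := by
  have hx : (x : K) ≠ 0 := x.ne_zero
  have hiff : ∀ w : HeightOneSpectrum (𝓞 K),
      w.valuation K (x : K) = 1 ↔ ord K w.asIdeal (x : K) = 0 := by
    intro w
    rw [ord_aux_eq', neg_eq_zero]
    constructor
    · intro h
      rw [h, WithZero.log_one]
    · intro h
      rw [← WithZero.exp_log (ord_aux_val_ne_zero K w hx), h, WithZero.exp_zero]
  constructor
  · intro h v hv hv0 hvS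
    exact (hiff ⟨v, hv, hv0⟩).mp (h ⟨v, hv, hv0⟩ hvS)
  · intro h w hw
    exact (hiff w).mpr (h w.asIdeal w.isPrime w.ne_bot hw)

theorem finite_ord_ne_zero (x : K) :
    {v : Ideal (𝓞 K) | v.IsPrime ∧ v ≠ ⊥ ∧ ord K v x ≠ 0}.Finite := by
  classical
  by_cases hx : x = 0
  · subst hx
    have : {v : Ideal (𝓞 K) | v.IsPrime ∧ v ≠ ⊥ ∧ ord K v (0 : K) ≠ 0} = ∅ := by
      ext v
      simp [ord_zero]
    rw [this]
    exact Set.finite_empty
  · obtain ⟨a, b, hb, rfl⟩ := IsFractionRing.div_surjective (A := 𝓞 K) x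
    have hb0 : b ≠ 0 := nonZeroDivisors.ne_zero hb
    have hbK : algebraMap (𝓞 K) K b ≠ 0 := by
      intro h0
      exact hb0 ((FaithfulSMul.algebraMap_injective (𝓞 K) K) (by rw [h0, map_zero]))
    have haK : algebraMap (𝓞 K) K a ≠ 0 := by
      intro h0
      apply hx
      rw [h0, zero_div]
    have ha0 : a ≠ 0 := by
      rintro rfl
      exact haK (map_zero _)
    refine Set.Finite.subset
      ((Multiset.finite_toSet (normalizedFactors (Ideal.span {a} : Ideal (𝓞 K)))).union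
        (Multiset.finite_toSet (normalizedFactors (Ideal.span {b} : Ideal (𝓞 K))))) ?_
    rintro v ⟨hv, hv0, hne⟩
    rw [ord_div K v haK hbK, ord_algebraMap K hv hv0 ha0, ord_algebraMap K hv hv0 hb0] at hne
    by_contra hcon
    have h1 : v ∉ normalizedFactors (Ideal.span {a} : Ideal (𝓞 K)) := fun hm => hcon (Or.inl hm)
    have h2 : v ∉ normalizedFactors (Ideal.span {b} : Ideal (𝓞 K)) := fun hm => hcon (Or.inr hm)
    apply hne
    rw [Multiset.count_eq_zero_of_notMem h1, Multiset.count_eq_zero_of_notMem h2, Nat.cast_zero,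
      sub_zero]

/-- An element which is integral at every prime is an algebraic integer. -/
theorem exists_integer_of_ord_nonneg {x : K}
    (h : ∀ v : Ideal (𝓞 K), v.IsPrime → v ≠ ⊥ → 0 ≤ ord K v x) :
    ∃ y : 𝓞 K, algebraMap (𝓞 K) K y = x := by
  have hmem : x ∈ (algebraMap (𝓞 K) K).range := by
    apply HeightOneSpectrum.mem_integers_of_valuation_le_one
    intro w
    have hw := h w.asIdeal w.isPrime w.ne_bot
    rw [ord_aux_eq'] at hw
    rw [← WithZero.exp_zero]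
    apply WithZero.le_exp_of_log_le
    omega
  exact hmem

/-- An element with `ord v x ≥ 0` has a denominator prime to `v`. -/
theorem exists_frac_of_ord_nonneg {v : Ideal (𝓞 K)} (hv : v.IsPrime) (hv0 : v ≠ ⊥) {x : K}
    (h : 0 ≤ ord K v x) :
    ∃ a b : 𝓞 K, b ∉ v ∧ x * algebraMap (𝓞 K) K b = algebraMap (𝓞 K) K a := by
  have hle : (⟨v, hv, hv0⟩ : HeightOneSpectrum (𝓞 K)).valuation K x ≤ 1 := by
    rw [ord_aux_eq K hv hv0] at h
    rw [← WithZero.exp_zero]
    apply WithZero.le_exp_of_log_le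
    omega
  obtain ⟨n, d, hnd⟩ := HeightOneSpectrum.exists_primeCompl_mul_eq_of_integer
    (⟨v, hv, hv0⟩ : HeightOneSpectrum (𝓞 K)) x hle
  exact ⟨n, d.1, d.2, hnd⟩

/-- A `v`-unit is a quotient of two integers prime to `v`. -/
theorem exists_frac_of_ord_eq_zero {v : Ideal (𝓞 K)} (hv : v.IsPrime) (hv0 : v ≠ ⊥) {x : K}
    (hx : x ≠ 0) (h : ord K v x = 0) :
    ∃ a b : 𝓞 K, a ∉ v ∧ b ∉ v ∧ x * algebraMap (𝓞 K) K b = algebraMap (𝓞 K) K a := by
  obtain ⟨a, b, hb, hab⟩ := exists_frac_of_ord_nonneg K hv hv0 (x := x) (le_of_eq h.symm)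
  have hb0 : b ≠ 0 := by
    rintro rfl
    exact hb v.zero_mem
  have hbK : algebraMap (𝓞 K) K b ≠ 0 := by
    intro h0
    exact hb0 ((FaithfulSMul.algebraMap_injective (𝓞 K) K) (by rw [h0, map_zero]))
  have haK : algebraMap (𝓞 K) K a ≠ 0 := by
    rw [← hab]
    exact mul_ne_zero hx hbK
  have ha0 : a ≠ 0 := by
    rintro rfl
    exact haK (map_zero _)
  refine ⟨a, b, ?_, hb, hab⟩
  intro ha
  have h1 := ord_mul K v hx hbK
  rw [hab, h, ord_eq_zero_of_notMem K hv hv0 hb, add_zero] at h1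
  have h2 := (one_le_ord_iff K hv hv0 ha0).mpr ha
  omega

theorem ord_eq_zero_of_frac {v : Ideal (𝓞 K)} (hv : v.IsPrime) (hv0 : v ≠ ⊥) {x : K}
    {a b : 𝓞 K} (ha : a ∉ v) (hb : b ∉ v)
    (h : x * algebraMap (𝓞 K) K b = algebraMap (𝓞 K) K a) : ord K v x = 0 := by
  have ha0 : a ≠ 0 := by
    rintro rfl
    exact ha v.zero_mem
  have hb0 : b ≠ 0 := by
    rintro rfl
    exact hb v.zero_mem
  have haK : algebraMap (𝓞 K) K a ≠ 0 := by
    intro h0
    exact ha0 ((FaithfulSMul.algebraMap_injective (𝓞 K) K) (by rw [h0, map_zero]))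
  have hbK : algebraMap (𝓞 K) K b ≠ 0 := by
    intro h0
    exact hb0 ((FaithfulSMul.algebraMap_injective (𝓞 K) K) (by rw [h0, map_zero]))
  have hx : x ≠ 0 := by
    rintro rfl
    rw [zero_mul] at h
    exact haK h.symm
  have h1 := ord_mul K v hx hbK
  rw [h, ord_eq_zero_of_notMem K hv hv0 ha, ord_eq_zero_of_notMem K hv hv0 hb, add_zero] at h1
  exact h1.symm

end Fermat.Agent.S14.FirstIneq
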