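import Fermat.Agent.S14.FirstIneq.Ord

/-!
# S14 / FirstIneq / PthRes : API of the predicate `IsPthRes K p w x`
("`x` is a `w`-unit and a `p`-th power residue modulo `w`").  Statements FROZEN (helper12).
-/

set_option autoImplicit false
set_option linter.unusedSectionVars false

namespace Fermat.Agent.S14.FirstIneq

open NumberField IsDedekindDomain UniqueFactorizationMonoid

variable (K : Type*) [Field K] [NumberField K] (p : ℕ)

/-- Auxiliary: in a commutative ring, an element prime to a maximal ideal has an inverse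
modulo that ideal, hence also modulo the ideal after taking `p`-th powers. -/
theorem pthres_aux_exists_inv {R : Type*} [CommRing R] {w : Ideal R} (hmax : w.IsMaximal)
    {c : R} (hc : c ∉ w) (n : ℕ) : ∃ c' : R, (c * c') ^ n - 1 ∈ w := by
  obtain ⟨y, i, hi, hyi⟩ := hmax.exists_inv hc
  refine ⟨y, ?_⟩
  have h1 : c * y - 1 ∈ w := by
    have : c * y - 1 = -i := by rw [← hyi]; ring
    rw [this]
    exact w.neg_mem hi
  have h2 : (Ideal.Quotient.mk w) (c * y) = 1 := by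
    rw [← map_one (Ideal.Quotient.mk w)]
    exact Ideal.Quotient.eq.2 h1
  have h3 : (Ideal.Quotient.mk w) ((c * y) ^ n) = (Ideal.Quotient.mk w) 1 := by
    rw [map_pow, h2, one_pow, map_one]
  exact Ideal.Quotient.eq.1 h3

set_option linter.unusedVariables false in
theorem IsPthRes.ne_zero {w : Ideal (𝓞 K)} (hw : w.IsPrime) {x : K} (h : IsPthRes K p w x) :
    x ≠ 0 := by
  obtain ⟨a, b, c, ha, hb, hc, hab⟩ := h
  rintro rfl
  rw [zero_mul] at hab
  have ha0 : a = 0 :=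
    (map_eq_zero_iff (algebraMap (𝓞 K) K) (FaithfulSMul.algebraMap_injective (𝓞 K) K)).1
      hab.symm
  exact ha (ha0 ▸ w.zero_mem)

theorem IsPthRes.ord_eq_zero {w : Ideal (𝓞 K)} (hw : w.IsPrime) (hw0 : w ≠ ⊥) {x : K}
    (h : IsPthRes K p w x) : ord K w x = 0 := by
  obtain ⟨a, b, c, ha, hb, hc, hab⟩ := h
  exact ord_eq_zero_of_frac K hw hw0 ha hb hab

theorem isPthRes_one {w : Ideal (𝓞 K)} (hw : w.IsPrime) : IsPthRes K p w 1 := by
  have h1 : (1 : 𝓞 K) ∉ w := fun h => hw.ne_top ((Ideal.eq_top_iff_one w).2 h)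
  refine ⟨1, 1, 1, h1, h1, ?_, ?_⟩
  · have : (1 : 𝓞 K) - 1 * 1 ^ p = 0 := by rw [one_pow, mul_one, sub_self]
    rw [this]
    exact w.zero_mem
  · rw [map_one, mul_one]

theorem IsPthRes.mul {w : Ideal (𝓞 K)} (hw : w.IsPrime) {x y : K}
    (hx : IsPthRes K p w x) (hy : IsPthRes K p w y) : IsPthRes K p w (x * y) := by
  obtain ⟨a, b, c, ha, hb, hc, hab⟩ := hx
  obtain ⟨a', b', c', ha', hb', hc', hab'⟩ := hy
  refine ⟨a * a', b * b', c * c', ?_, ?_, ?_, ?_⟩
  · exact fun h => (hw.mem_or_mem h).elim ha ha'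
  · exact fun h => (hw.mem_or_mem h).elim hb hb'
  · have : a * a' - b * b' * (c * c') ^ p
        = a * (a' - b' * c' ^ p) + (a - b * c ^ p) * (b' * c' ^ p) := by ring
    rw [this]
    exact w.add_mem (w.mul_mem_left _ hc') (w.mul_mem_right _ hc)
  · rw [map_mul, map_mul, ← hab, ← hab']
    ring

theorem IsPthRes.inv {w : Ideal (𝓞 K)} (hw : w.IsPrime) (hw0 : w ≠ ⊥) {x : K}
    (hx : IsPthRes K p w x) : IsPthRes K p w x⁻¹ := by
  have hx0 : x ≠ 0 := IsPthRes.ne_zero K p hw hx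
  obtain ⟨a, b, c, ha, hb, hc, hab⟩ := hx
  have hmax : w.IsMaximal := Ideal.IsPrime.isMaximal hw hw0
  have hcp : c ^ p ∉ w := by
    intro h
    apply ha
    have : a = (a - b * c ^ p) + b * c ^ p := by ring
    rw [this]
    exact w.add_mem hc (w.mul_mem_left _ h)
  have hinv : x⁻¹ * algebraMap (𝓞 K) K a = algebraMap (𝓞 K) K b := by
    rw [← hab, ← mul_assoc, inv_mul_cancel₀ hx0, one_mul]
  by_cases hcw : c ∈ w
  · have hp : p = 0 := by
      by_contra hp
      exact hcp (w.pow_mem_of_mem hcw p (Nat.pos_of_ne_zero hp))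
    subst hp
    refine ⟨b, a, 1, hb, ha, ?_, hinv⟩
    have : b - a * 1 ^ 0 = -(a - b * c ^ 0) := by ring
    rw [this]
    exact w.neg_mem hc
  · obtain ⟨c', hc'⟩ := pthres_aux_exists_inv hmax hcw p
    refine ⟨b, a, c', hb, ha, ?_, hinv⟩
    have : b - a * c' ^ p = -(b * ((c * c') ^ p - 1)) - (a - b * c ^ p) * c' ^ p := by ring
    rw [this]
    exact w.sub_mem (w.neg_mem (w.mul_mem_left _ hc')) (w.mul_mem_right _ hc)

theorem IsPthRes.div {w : Ideal (𝓞 K)} (hw : w.IsPrime) (hw0 : w ≠ ⊥) {x y : K}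
    (hx : IsPthRes K p w x) (hy : IsPthRes K p w y) : IsPthRes K p w (x / y) := by
  rw [div_eq_mul_inv]
  exact IsPthRes.mul K p hw hx (IsPthRes.inv K p hw hw0 hy)

theorem IsPthRes.pow {w : Ideal (𝓞 K)} (hw : w.IsPrime) {x : K}
    (hx : IsPthRes K p w x) (n : ℕ) : IsPthRes K p w (x ^ n) := by
  induction n with
  | zero => rw [pow_zero]; exact isPthRes_one K p hw
  | succ n ih => rw [pow_succ]; exact IsPthRes.mul K p hw ih hx

theorem IsPthRes.zpow {w : Ideal (𝓞 K)} (hw : w.IsPrime) (hw0 : w ≠ ⊥) {x : K}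
    (hx : IsPthRes K p w x) (n : ℤ) : IsPthRes K p w (x ^ n) := by
  obtain ⟨m, rfl | rfl⟩ := Int.eq_nat_or_neg n
  · rw [zpow_natCast]
    exact IsPthRes.pow K p hw hx m
  · rw [zpow_neg, zpow_natCast]
    exact IsPthRes.inv K p hw hw0 (IsPthRes.pow K p hw hx m)

theorem IsPthRes.prod {w : Ideal (𝓞 K)} (hw : w.IsPrime) {ι : Type*} (s : Finset ι) (f : ι → K)
    (hf : ∀ i ∈ s, IsPthRes K p w (f i)) : IsPthRes K p w (∏ i ∈ s, f i) := by
  exact Finset.prod_induction f (fun z => IsPthRes K p w z)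
    (fun _ _ hx hy => IsPthRes.mul K p hw hx hy) (isPthRes_one K p hw) hf

/-- The `p`-th power of a `w`-unit is a `p`-th power residue. -/
theorem isPthRes_pow_self {w : Ideal (𝓞 K)} (hw : w.IsPrime) (hw0 : w ≠ ⊥) {x : K} (hx : x ≠ 0)
    (h0 : ord K w x = 0) : IsPthRes K p w (x ^ p) := by
  obtain ⟨a, b, ha, hb, hab⟩ := exists_frac_of_ord_eq_zero K hw hw0 hx h0
  have hmax : w.IsMaximal := Ideal.IsPrime.isMaximal hw hw0
  obtain ⟨b', hb'⟩ := pthres_aux_exists_inv hmax hb p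
  refine ⟨a ^ p, b ^ p, a * b', ?_, ?_, ?_, ?_⟩
  · exact fun h => ha (hw.mem_of_pow_mem p h)
  · exact fun h => hb (hw.mem_of_pow_mem p h)
  · have : a ^ p - b ^ p * (a * b') ^ p = -(a ^ p * ((b * b') ^ p - 1)) := by ring
    rw [this]
    exact w.neg_mem (w.mul_mem_left _ hb')
  · rw [map_pow, map_pow, ← mul_pow, hab]

/-- For an algebraic integer `y` the predicate is the naive one (as in the interface
`firstInequality`). -/
theorem isPthRes_algebraMap_iff {w : Ideal (𝓞 K)} (hw : w.IsPrime) (y : 𝓞 K) :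
    IsPthRes K p w (algebraMap (𝓞 K) K y) ↔ y ∉ w ∧ ∃ c : 𝓞 K, y - c ^ p ∈ w := by
  constructor
  · rintro ⟨a, b, c, ha, hb, hc, hab⟩
    have hyb : y * b = a := by
      apply FaithfulSMul.algebraMap_injective (𝓞 K) K
      rw [map_mul, hab]
    refine ⟨fun hy => ha (hyb ▸ w.mul_mem_right _ hy), c, ?_⟩
    have hmem : b * (y - c ^ p) ∈ w := by
      have : b * (y - c ^ p) = a - b * c ^ p := by rw [← hyb]; ring
      rw [this]
      exact hc
    exact (hw.mem_or_mem hmem).resolve_left hb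
  · rintro ⟨hy, c, hc⟩
    have h1 : (1 : 𝓞 K) ∉ w := fun h => hw.ne_top ((Ideal.eq_top_iff_one w).2 h)
    refine ⟨y, 1, c, hy, h1, ?_, ?_⟩
    · rw [one_mul]
      exact hc
    · rw [map_one, mul_one]

/-- If `x` is a `w`-unit, `p` is prime, `p ∤ n` and `x ^ n` is a `p`-th power residue,
then so is `x`. -/
theorem isPthRes_of_pow [Fact p.Prime] {w : Ideal (𝓞 K)} (hw : w.IsPrime) (hw0 : w ≠ ⊥) {x : K}
    (hx : x ≠ 0) (h0 : ord K w x = 0) {n : ℕ} (hn : ¬ p ∣ n) (h : IsPthRes K p w (x ^ n)) :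
    IsPthRes K p w x := by
  have hp : p.Prime := Fact.out
  have hcop : Nat.Coprime n p := ((Nat.Prime.coprime_iff_not_dvd hp).2 hn).symm
  obtain ⟨s, t, hst⟩ := Nat.isCoprime_iff_coprime.2 hcop
  have hxeq : x = (x ^ n) ^ s * (x ^ p) ^ t := by
    rw [← zpow_natCast x n, ← zpow_natCast x p, ← zpow_mul, ← zpow_mul, ← zpow_add₀ hx,
      mul_comm (n : ℤ) s, mul_comm (p : ℤ) t, hst, zpow_one]
  rw [hxeq]
  exact IsPthRes.mul K p hw (IsPthRes.zpow K p hw hw0 h s)
    (IsPthRes.zpow K p hw hw0 (isPthRes_pow_self K p hw hw0 hx h0) t)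

end Fermat.Agent.S14.FirstIneq
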