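/-!
# Task texts for the workers of theory FirstIneq (owner helper12).  Not imported by anything.

## TASK ORD

FILE: Fermat/Agent/S14/FirstIneq/Ord.lean (imports only FirstIneq/Defs.lean). Aux-name tag: `ord_aux_`. Prove all 18 sorried statements (basic API of `ord K v x`).
Hints. `ord` unfolds to `-WithZero.log (v'.valuation K x)` with `v' : HeightOneSpectrum (𝓞 K)` when `v` is a nonzero prime (use `unfold ord; split_ifs` or `simp only [ord, dif_pos h]`), else `0`. Mathlib (Mathlib/RingTheory/DedekindDomain/AdicValuation.lean, Factorization.lean, SInteger.lean; Mathlib/Algebra/GroupWithZero/WithZero.lean): `HeightOneSpectrum.valuation` is a `Valuation K ℤᵐ⁰` (`map_mul`, `map_inv₀`, `map_pow`, `Valuation.ne_zero_iff`), `WithZero.log_mul` (needs both factors ≠ 0), `WithZero.log_one`, `log_pow`, `log_exp`, `valuation_of_algebraMap`, `intValuation_if_neg` / `intValuation_eq_exp_neg_multiplicity`, `Ideal.count_associates_factors_eq`, `count_normalizedFactors_eq_multiplicity` (Factorization.lean, end of file), `intValuation_lt_one_iff_mem`/`intValuation_le_one`,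 `HeightOneSpectrum.mem_integers_of_valuation_le_one` (an element with all valuations ≤ 1 is in the range of algebraMap), `Ideal.finite_factors`. For `finite_ord_ne_zero` write x = a/b (IsFractionRing.div_surjective) and bound the set by the prime factors of (a) and (b). For `exists_frac_of_ord_nonneg` (denominator prime to v): write x = a/b, k := ord v b ≤ ord v a; with J := (b)·v^(-k) (integral, coprime to v: i.e. (b) = v^k * J) pick c ∈ J, c ∉ v (J ⊄ v); then c·a ∈ J·v^k = (b), so c·a = b·d and x = d/c. `exists_frac_of_ord_eq_zero` follows (then a ∉ v since ord a = ord x + ord b = 0 ⇒ use one_le_ord_iff). Junk cases (v not prime, v = ⊥, x = 0) are all covered by the statements as written — check them.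

## TASK PTHRES

FILE: Fermat/Agent/S14/FirstIneq/PthRes.lean (imports Ord.lean; use its statements as black boxes). Aux-name tag: `pthres_aux_`. Prove all 12 sorried statements (API of `IsPthRes K p w x := ∃ a b c : 𝓞 K, a ∉ w ∧ b ∉ w ∧ a - b * c ^ p ∈ w ∧ x * algebraMap (𝓞 K) K b = algebraMap (𝓞 K) K a`).
Hints: everything is elementary algebra in the domain 𝓞 K and its fraction field K (`IsFractionRing.injective (𝓞 K) K` / `FaithfulSMul.algebraMap_injective`, `map_mul`, `map_sub`), using that w prime ⇒ (a*b ∉ w ↔ a ∉ w ∧ b ∉ w) (`Ideal.IsPrime.mem_or_mem`), and for `inv`, `zpow`, `isPthRes_pow_self`: w is maximal (`Ideal.IsPrime.isMaximal hw hw0`), so for c ∉ w there is c' with c*c' - 1 ∈ w (`Ideal.IsMaximal.exists_inv`). mul: (a a', b b', c c'). inv: from x b = a, a ≡ b c^p: c ∉ w, take c' inverse of c mod w: b ≡ a c'^p, so (b, a, c') works for x⁻¹. isPthRes_pow_self: ord K w x = 0 and x ≠ 0 give x = a/b with a, b ∉ w (`exists_frac_of_ord_eq_zero`); x^p = a^p/b^p and a^p ≡ b^p (a b')^p with b b' ≡ 1. isPthRes_algebraMap_iff: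 (⇐) a = y, b = 1; (⇒) y*b = a in 𝓞 K by injectivity, so y ∉ w and b*(y - c^p) ∈ w. isPthRes_of_pow: Bezout s*n + t*p = 1 (`Nat.Coprime`, `Int.gcd_eq_gcd_ab` or `Nat.Prime.coprime_iff_not_dvd`), x = (x^n)^s * (x^p)^t with integer exponents s t (zpow), then use zpow/mul closure and isPthRes_pow_self. ord_eq_zero: `ord_eq_zero_of_frac`.

## TASK ORDREL

FILE: Fermat/Agent/S14/FirstIneq/OrdRel.lean (imports Ord.lean; use its statements as black boxes). Aux-name tag: `ordrel_aux_`. Prove all 18 sorried statements: valuations and primes in a Galois extension N/F of number fields (several in prime degree p = finrank F N). This is a HEAVY file and many other files depend on its statements: you are encouraged to spawn 2–3 helpers for disjoint groups of lemmas (each proving its group in a separate aux file Fermat/Agent/S14/FirstIneq/OrdRel/<Name>.lean imported by OrdRel.lean, statements copied verbatim under a different name, then OrdRel.lean's theorems become one-line `exact`s), e.g. group A = Galois group structure of prime order (mem_zpowers_of_ne_one,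 pow_card_eq_one, exists_ne_one, algebraMap_norm_eq_prod_pow), group B = primes above (under_isPrime_ne_bot, ne_bot_of_liesOver, exists_liesOver, exists_smul_eq_of_liesOver, smul_isPrime_liesOver, eq_of_liesOver_of_not_splitsCompletely, smul_eq_of_not_splitsCompletely, not_splitsCompletely_of_isRam, smul_sub_mem_of_ramified, exists_sub_mem_of_ramified), group C = valuations (ord_smul, ord_algebraMap_eq_zero_iff, ord_algebraMap_of_unramified, ord_algebraMap_of_ramified).
Hints. The action: Mathlib gives `MulSemiringAction (N ≃ₐ[F] N) (𝓞 N)` and (open scoped Pointwise) the action on `Ideal (𝓞 N)`; `Ideal.inertia`, `MulAction.stabilizer`; `Algebra.IsInvariant (𝓞 F) (𝓞 N) (N ≃ₐ[F] N)` / `IsGaloisGroup` instances (grep `IsInvariant`, `IsGaloisGroup` in Mathlib/RingTheory/Invariant, Mathlib/NumberTheory/NumberField, Mathlib/NumberTheory/RamificationInertia/Galois.lean): transitivity on primes over a given prime (`Algebra.IsInvariant.exists_smul_of_under_eq` or `Ideal.exists_map_eq_of_isGalois`), `Ideal.ncard_primesOver_mul_ramificationIdxIn_mul_inertiaDegIn`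 (g·e·f = finrank), cardinality of inertia/stabilizer groups vs e, e·f (grep `card_inertia`, `card_stabilizer`, `ramificationIdxIn`, `inertiaDegIn`), `IsGalois.card_aut_eq_finrank`, `Subgroup.eq_bot_or_eq_top_of_prime_card`, `zpowers_eq_top_of_prime_card`/`isCyclic_of_prime_card`, `Algebra.norm_eq_prod_automorphisms`, `Ideal.LiesOver` (`Ideal.LiesOver.over : v = Q.under _`), `Ideal.under_def`, going up/`Ideal.exists_ideal_over_prime_of_isIntegral`/`Ideal.exists_ideal_liesOver_maximal_of_isIntegral`, `Ideal.eq_bot_of_comap_eq_bot`. Valuation under extension: Mathlib/NumberTheory/RamificationInertia/Valuation.lean `valuation_liesOver` (v.valuation K x ^ ramificationIdx' = w.valuation L (algebraMap K L x)); relate `ramificationIdx'` to `Ideal.ramificationIdx`/`ramificationIdxIn` and to the inertia group: UnramifiedAt F N Q means `Q.inertia (N ≃ₐ[F] N) = ⊥`, which for Galois extensions of number fields is e = 1; in prime degree `¬UnramifiedAt` means inertia = ⊤, e = p, f = 1 (residue field does not grow ⇒ exists_sub_mem_of_ramified: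 the injective map 𝓞 F ⧸ v → 𝓞 N ⧸ Q between finite sets of equal cardinality is surjective), and g = 1. ord_smul: for an integer y the multiplicity of τ•Q in (τ y) equals that of Q in (y) because τ is a ring automorphism of 𝓞 N (Q^k ∣ (y) ↔ (τ•Q)^k ∣ (τ•y)); reduce x ∈ N to a quotient of integers; or use the valuation characterisation. If some Mathlib lemma is missing, prove it directly from unique factorisation of ideals. Check the junk cases (Q not prime, Q = ⊥, x = 0): statements are meant to hold as written.

## TASK PLACES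

FILE: Fermat/Agent/S14/FirstIneq/Places.lean (imports only Defs). Aux-name tag: `places_aux_`. Prove `card_infinitePlace_eq`: if ζ_p ∈ F (p an odd prime) and finrank F N = p then Nat.card (InfinitePlace N) = p * Nat.card (InfinitePlace F).
Plan: a number field containing a primitive p-th root of unity with p ≥ 3 has no real embedding (a real embedding would send ζ to a real number z with z^p = 1, so z = 1 since p is odd (x ↦ x^p is injective on ℝ for odd p: `Odd.strictMono_pow`) — contradiction with primitivity, p ≠ 1); so F and N (which contains algebraMap F N ζ, primitive by injectivity: `IsPrimitiveRoot.map_of_injective`) are totally complex and Nat.card (InfinitePlace K) = finrank ℚ K / 2. Mathlib: Mathlib/NumberTheory/NumberField/InfinitePlace/{Basic,Embeddings,TotallyRealComplex}.lean: `NumberField.InfinitePlace.card_add_two_mul_card_eq_rank` (nrRealPlaces K + 2 * nrComplexPlaces K = finrank ℚ K), `card_eq_nrRealPlaces_add_nrComplexPlaces`, `nrRealPlaces_eq_zero_iff` / `IsTotallyComplex`, `InfinitePlace.IsReal`, `ComplexEmbedding.IsReal`,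 `NumberField.InfinitePlace.isReal_iff`, `IsTotallyComplex.finrank` (if present); tower: `Module.finrank_mul_finrank ℚ F N`. `Nat.card_eq_fintype_card` converts.

## TASK ABOVE

FILE: Fermat/Agent/S14/FirstIneq/Above.lean (imports OrdRel.lean; use the statements of Ord.lean/OrdRel.lean as black boxes). Aux-name tag: `above_aux_`. Prove `above_isPrime_ne_bot`, `above_finite`, `above_ncard`.
`above F N S = {Q | Q.IsPrime ∧ Q.under (𝓞 F) ∈ S}`. Plan: it is the disjoint union over v ∈ S of P(v) := {Q | Q.IsPrime ∧ Q.LiesOver v} (Mathlib: `Ideal.primesOver v (𝓞 N)`; `Ideal.LiesOver.over : v = Q.under _`; finiteness: `Ideal.primesOver_finite` / `IsDedekindDomain.primesOver_finite` — grep). Count of P(v) for a nonzero prime v (N/F Galois of prime degree p): if ¬SplitsCompletely F N v then P(v) is a singleton (OrdRel.exists_liesOver + eq_of_liesOver_of_not_splitsCompletely); if SplitsCompletely F N v then for a fixed Q₀ ∈ P(v) the map τ ↦ τ • Q₀ is a bijection (N ≃ₐ[F] N) → P(v): injective because the stabilizer of Q₀ is trivial (definition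 of SplitsCompletely in ../Defs.lean: `MulAction.stabilizer (N ≃ₐ[F] N) Q = ⊥`), surjective by OrdRel.exists_smul_eq_of_liesOver, well defined by smul_isPrime_liesOver; and Nat.card (N ≃ₐ[F] N) = finrank F N = p (`IsGalois.card_aut_eq_finrank`). Then sum over S: ncard(above) = p·#(S \ I) + #I, i.e. ncard + (p-1)·#I = p·#S (`Set.ncard` of a finite disjoint union: e.g. prove by Finset induction on S, or via `Set.ncard_biUnion`/`Finset.card_biUnion` after converting finite sets to Finsets).

## TASK FIX

FILE: Fermat/Agent/S14/FirstIneq/Fix.lean (imports OrdRel.lean; use the statements of Ord.lean/OrdRel.lean as black boxes). Aux-name tag: `fix_aux_`. Prove all 9 sorried statements.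
Hints: unitsIncl_injective: `Units.map_injective` + injectivity of algebraMap F N (`FaithfulSMul.algebraMap_injective` / `(algebraMap F N).injective`). mem_range_unitsIncl_iff: Galois descent `IsGalois.mem_range_algebraMap_iff_fixed` or `IsGalois.mem_bot_iff_fixed` (grep in Mathlib/FieldTheory/Galois/Basic.lean), then lift the preimage of a unit to a unit (it is nonzero). ..._of_ne_one: every τ is a power of σ (OrdRel.mem_zpowers_of_ne_one). unitsIncl_mem_SUnits_iff: `mem_SUnits_iff` on both sides; for Q prime nonzero with Q ∉ above F N S put v := Q.under (𝓞 F) (prime, ≠ ⊥, v ∉ S, `Q.LiesOver v` by `⟨rfl⟩`) and use `ord_algebraMap_eq_zero_iff`; conversely for v ∉ S pick Q over v (`exists_liesOver`), then Q ∉ above F N S. unitsAut_mem_SUnits: `ord_smul` with τ⁻¹ (note (τ • Q).under (𝓞 F) = Q.under (𝓞 F): `smul_isPrime_liesOver`), so above F N S is stable under the Galois action. unitsNorm_mem_SUnits: NO degree hypothesis: use `Algebra.norm_eq_prod_automorphisms` (algebraMap F N (norm z) = ∏ τ, τ z), the product of the S-units unitsAut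 τ z is an S-unit (Subgroup.prod_mem), then unitsIncl_mem_SUnits_iff. unitsAut_iterate: induction (`Function.iterate_succ_apply'`, `pow_succ`, `AlgEquiv.mul_apply`), compare in N via `Units.ext`. unitsAut_iterate_card: `pow_card_eq_one`. unitsIncl_unitsNorm: `Units.ext`, `algebraMap_norm_eq_prod_pow`, `unitsAut_iterate`, `normHom_apply`, `Units.coe_prod`.

## TASK CLASSGEN

FILE: Fermat/Agent/S14/FirstIneq/ClassGen.lean (imports PthRes.lean, Ord.lean; use their statements as black boxes). Aux-name tag: `classgen_aux_`. Prove `classGen_mono` (trivial), `exists_classGen`, `ClassGen.exists_ord_eq`, `exists_nonres`. The three main theorems are independent: you may spawn up to 2 helpers (each proving one theorem in an aux file Fermat/Agent/S14/FirstIneq/ClassGen/<Name>.lean under another name, statement copied verbatim).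
(1) exists_classGen: the class group of 𝓞 K is finite (Fintype/Finite (ClassGroup (𝓞 K)) instance for number fields), `ClassGroup.mk0_surjective`, `ClassGroup.mk0_eq_one_iff` (principal), `ClassGroup.mk0_eq_mk0_iff`. Key lemma: every class contains a nonzero integral ideal J coprime to all w ∈ R (no w ∈ R divides J): given a nonzero ideal I, choose α ∈ I with α ∉ w * I for every w ∈ R (possible by CRT / `IsDedekindDomain.exists_forall_sub_mem_ideal`, or prime avoidance in I/(∏R)·I; or use `IsDedekindDomain.exists_sup_span_eq`), then span{α} = I * J with J coprime to R and class(J) = class(I)⁻¹; as I ranges over all classes so does J. Take S₀ := union over the finitely many classes c of the (Finset of) prime factors of one such J_c. ClassGen: for I ≠ ⊥ take c := class(I)⁻¹: I * J_c is principal, J_c ≠ ⊥, prime factors in S₀ (prime factors of a nonzero ideal are nonzero primes: `UniqueFactorizationMonoid.prime_of_normalized_factor`, `Ideal.prime_iff_isPrime`/`Ideal.isPrime_of_prime`).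
(2) ClassGen.exists_ord_eq: let P := the finite set of nonzero primes v ∉ S with a v ≠ 0; I⁺ := ∏_{v∈P, a v > 0} v^(a v).toNat, I⁻ := ∏_{v∈P, a v < 0} v^(-a v).toNat; ClassGen gives J⁺, J⁻ (supported on S) and generators c⁺, c⁻ ≠ 0 of I⁺J⁺, I⁻J⁻; c := c⁺/c⁻. For v ∉ S prime nonzero: ord v c = count of v in I⁺J⁺ minus count in I⁻J⁻ = a v (use `ord_algebraMap` (count in normalizedFactors (span{c±})), `ord_div`, `normalizedFactors_mul`, `Multiset.count_add`, normalizedFactors of a product of prime powers, and that v ∉ normalizedFactors J± since those lie in S).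
(3) exists_nonres: for w ∈ R: w maximal, k := 𝓞 K ⧸ w a finite field; ζ (primitive p-th root in K, an algebraic integer: lift to 𝓞 K via `IsPrimitiveRoot.isIntegral`/`RingOfIntegers`), its class ζ̄ ∈ k satisfies ζ̄^p = 1, ζ̄ ≠ 1 (else 1 + ζ + … + ζ^(p-1) = 0 (`IsPrimitiveRoot.geom_sum_eq_zero`) reduces to p = 0 in k, i.e. (p : 𝓞 K) ∈ w). So y ↦ y^p is not injective on the finite group kˣ, hence not surjective: pick g ∈ kˣ not a p-th power, g₀ ∈ 𝓞 K a lift. CRT (`IsDedekindDomain.exists_forall_sub_mem_ideal`, distinct primes of R, exponents 1): x ≡ g₀ mod w, x ≡ 1 mod w' (w' ∈ R, w' ≠ w). Then x ∉ w' ∀ w' ∈ R, x ≠ 0, `isPthRes_algebraMap_iff`: at w' ≠ w take c = 1; at w: x - c^p ∈ w would make g = c̄^p.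

## TASK NORMZ

FILE: Fermat/Agent/S14/FirstIneq/NormZ.lean (imports PthRes.lean, OrdRel.lean, Ord.lean; use their statements as black boxes). Aux-name tag: `normz_aux_`. Prove `dvd_ord_unitsNorm` and `isPthRes_unitsNorm`. N/F Galois, finrank F N = p prime; pick σ ≠ 1 by `exists_ne_one`.
(1) dvd_ord_unitsNorm: v nonzero prime, all primes above v unramified, v not split completely. Take Q over v (`exists_liesOver`); τ • Q = Q for all τ (`smul_eq_of_not_splitsCompletely`). With y := Algebra.norm F z: ord F v y = ord N Q (algebraMap F N y) (`ord_algebraMap_of_unramified`) = ord N Q (∏_{i<p} (σ^i) z) (`algebraMap_norm_eq_prod_pow`) = ∑_{i<p} ord N Q ((σ^i) z) (`ord_prod`, all factors ≠ 0) and ord N Q ((σ^i) z) = ord N ((σ^i) • Q) ((σ^i) z) = ord N Q z (`ord_smul`), so the sum is p * ord N Q z.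
(2) isPthRes_unitsNorm: w nonzero prime, IsRam F N w gives Q prime over w with ¬UnramifiedAt F N Q; Q ≠ ⊥ (`ne_bot_of_liesOver`). ord N Q z = 0 (hypothesis hz) gives z = α/β with α, β ∈ 𝓞 N \ Q (`exists_frac_of_ord_eq_zero`). Norm of integers: Algebra.norm F (algebraMap (𝓞 N) N α) = algebraMap (𝓞 F) F a for a := `Algebra.norm (𝓞 F) α` (Mathlib: `Algebra.norm_localization` / `RingOfIntegers.coe_norm` / `NumberField.RingOfIntegers.norm...` / `Algebra.coe_norm_int`-style lemma for the relative integral norm `Algebra.intNorm`, grep `intNorm`; or show integrality of the norm directly). Claim: algebraMap (𝓞 F) (𝓞 N) a - α^p ∈ Q: in N, algebraMap a = ∏_{i<p} (σ^i) α and each (σ^i) • α - α ∈ Q (`smul_sub_mem_of_ramified`), so the product is ≡ α^p mod Q (work in the quotient ring 𝓞 N ⧸ Q: `Ideal.Quotient.eq`, `map_prod`). By `exists_sub_mem_of_ramified` pick a' ∈ 𝓞 F with α - algebraMap a' ∈ Q; then algebraMap (a - a'^p) ∈ Q, hence a - a'^p ∈ Q.under (𝓞 F) = w (`Ideal.LiesOver.over`, `Ideal.mem_comap`/`Ideal.under_def`). Same for β: b,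 b' with b - b'^p ∈ w. a ∉ w (else α^p ∈ Q), b ∉ w, a' ∉ w, b' ∉ w. w maximal: pick b'' with b'·b'' - 1 ∈ w; c := a'·b''. Then a - b·c^p ≡ a'^p - b'^p a'^p b''^p ≡ 0 mod w, and norm(z)·b = a in F (norm multiplicative, z·β = α). So (a, b, c) witnesses IsPthRes F p w (norm z).

## TASK KEY

FILE: Fermat/Agent/S14/FirstIneq/Key.lean (imports Alg/Main, SUnit, Places, Above, Fix, H1, NormZ and transitively Ord, PthRes, OrdRel; use all their statements as black boxes). Aux-name tag: `key_aux_`. Prove `norm_index_bound` and `key`. You may spawn up to 2 helpers (e.g. one per theorem, each working in an aux file Fermat/Agent/S14/FirstIneq/Key/<Name>.lean under another name with the statement copied verbatim; aux files must not import Key.lean).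
(A) norm_index_bound. Pick σ₀ ≠ 1 (`exists_ne_one F N hdeg`), σ := unitsAut F N σ₀, Γ := Nˣ, W := SUnits N (above F N ↑S), U := SUnits F ↑S. Apply `herbrand_main p σ W` with hA := `sunits_fg N _ (above_finite ..)`, hσA := `unitsAut_mem_SUnits`, hσp := `unitsAut_iterate_card`. It yields h0 ≠ 0, h1 ≠ 0 and  h0^(p-1) * [W : W^p] * |W ⊓ ker δ ⊓ ker pow|^p = h1^(p-1) * [Wfix : Wfix^p]^p * |W ⊓ ker pow|  where h0 = (W.map (normHom σ p)).relIndex (W ⊓ (delHom σ).ker), h1 = (W.map (delHom σ)).relIndex (W ⊓ (normHom σ p).ker), Wfix = W ⊓ (delHom σ).ker. Identify every term: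
 - W ⊓ (delHom σ).ker = U.map (unitsIncl F N)   (z ∈ ker δ ⇔ σ z = z ⇔ z ∈ range unitsIncl by `mem_range_unitsIncl_iff_of_ne_one`; `unitsIncl_mem_SUnits_iff`).
 - W.map (normHom σ p) = (W.map (unitsNorm F N)).map (unitsIncl F N)   (`unitsIncl_unitsNorm`).
 - hence h0 = (W.map (unitsNorm F N)).relIndex U by `Subgroup.relIndex_map_map_of_injective` + `unitsIncl_injective` (this is the quantity in the goal).
 - [W : W^p] = p^(Nat.card (InfinitePlace N) + (above F N ↑S).ncard): `sunits_relIndex_pow N p` (ζ_N := algebraMap F N ζ is primitive: `IsPrimitiveRoot.map_of_injective`; hypotheses from `above_finite`, `above_isPrime_ne_bot`).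
 - |W ⊓ ker δ ⊓ ker pow| = p: this subgroup is the image under unitsIncl of U ⊓ (powMonoidHom p).ker; `Subgroup.card_map_of_injective`-style lemma (or `Nat.card_congr` with an explicit Equiv), then `sunits_torsion_card F p`.
 - [Wfix : Wfix^p] = [U : U^p] = p^(Nat.card (InfinitePlace F) + S.card) (`Subgroup.map_map`, powMonoidHom commutes with unitsIncl, `Subgroup.relIndex_map_map_of_injective`, `sunits_relIndex_pow F p`, `Set.ncard_coe_finset`).
 - |W ⊓ ker pow| = p: `sunits_torsion_card N p`.
 With r := Nat.card (InfinitePlace F), a := (above ..).ncard, s := S.card, i := I.card: `card_infinitePlace_eq` gives #∞_N = p*r and `above_ncard` gives a + (p-1)*i = p*s. So h0^(p-1) * p^(p*r+a) * p^p = h1^(p-1) * p^(p*(r+s)) * p; cancel powers of p (p > 0; p*s = a + (p-1)*i) to get (h0*p)^(p-1) = (h1*p^i)^(p-1), hence h0*p = h1*p^i (`Nat.pow_left_injective`, p-1 ≠ 0). With `h1_bound` (h1 ≤ p^Rr.card): h0*p ≤ p^(i + Rr.card). Do the exponent arithmetic carefully in ℕ (write p = k+1 if convenient; `Nat.eq_of_mul_eq_mul_left`, `pow_add`,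 `pow_mul`).
(B) key. Let Z : Subgroup Fˣ := {u | (∀ v ∈ I, (p:ℤ) ∣ ord F v u) ∧ (∀ w ∈ Rr, IsPthRes F p w u)} (subgroup by `ord_mul`, `ord_inv`, `ord_one`, `IsPthRes.mul`, `.inv`, `isPthRes_one`; elements of Rr are nonzero primes by hRr, hR).
 Step 1: W.map (unitsNorm F N) ≤ Z. For z ∈ W: for v ∈ I (v ∈ S, so v ∉ R, and every prime Q over v is unramified by hram: Q.under = v (`Ideal.LiesOver.over`), Q ≠ ⊥ by `ne_bot_of_liesOver`; v not split): `dvd_ord_unitsNorm`. For w ∈ Rr (w ∈ R, IsRam): every prime Q over w is ≠ ⊥ and ∉ above F N ↑S (its `under` is w ∉ S because elements of S are ∉ R), so ord N Q z = 0 by `mem_SUnits_iff`; `isPthRes_unitsNorm`.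
 Step 2 (independence): for a a' : I → Fin p (or ↥I → Fin p), b b' : Rr → Fin p put Φ(a,b) := ∏_{v∈I} z v ^ (a v) * ∏_{w∈Rr} x w ^ (b w) ∈ U. If Φ(a,b) / Φ(a',b') ∈ Z then a = a' and b = b': the quotient is ∏ z v^(a v - a' v : ℤ) * ∏ x w^(b w - b' w : ℤ); for v' ∈ I its ord at v' is ≡ a v' - a' v' mod p (hz1, hz1', hx1, `ord_mul`, `ord_prod`, `ord_zpow`), and |a v' - a' v'| < p, so a = a'. All z v are p-th power residues at every w ∈ Rr (hz2), x w' is one at w for w' ≠ w (hx3), so x w ^ (b w - b' w : ℤ) is a residue at w (`IsPthRes.div/.zpow/.prod/.mul`); if b w ≠ b' w then, replacing by the inverse if necessary (`IsPthRes.inv`), x w ^ n is a residue with 0 < n < p, so `isPthRes_of_pow` (needs ord F w (x w) = 0: from hxS via `mem_SUnits_iff`, w ∉ S) contradicts hx2.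
 Step 3 (count): by (A) idx := (W.map unitsNorm).relIndex U ≠ 0 and idx * p ≤ p^(#I+#Rr). By Step 1 and `Subgroup.relIndex_dvd_of_le_left`, Z.relIndex U ∣ idx, so Z.relIndex U ≠ 0, the quotient ↥U ⧸ Z.subgroupOf U is finite (`Subgroup.relIndex`, `Subgroup.index` = Nat.card of the quotient; `Subgroup.finiteIndex_iff`, `Subgroup.finite_quotient_of_finiteIndex`), and by Step 2 the map (a,b) ↦ class of Φ(a,b) from the Fintype (I → Fin p) × (Rr → Fin p) (card p^#I * p^#Rr; use ↥I → Fin p to get `Fintype.card_fun`/`Fintype.card_coe`) is injective (`QuotientGroup.eq`), so p^(#I+#Rr) ≤ Z.relIndex U ≤ idx (`Nat.card_le_card_of_injective`, `Nat.le_of_dvd`). Then idx * p ≥ p^(#I+#Rr) * p > p^(#I+#Rr) ≥ idx * p, contradiction (p ≥ 2).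

## TASK MAIN

FILE: Fermat/Agent/S14/FirstIneq/Main.lean (imports Key.lean, ClassGen.lean and transitively everything else; use all their statements as black boxes). Aux-name tag: `main_aux_`. Prove `main`. You may spawn up to 2 helpers for sub-lemmas (aux files Fermat/Agent/S14/FirstIneq/Main/<Name>.lean importing Key.lean and ClassGen.lean, not Main.lean). Suggested split: M1 (cleaning lemma), M2 (span induction + linear algebra), M3 (assembly, application of `key`).
Plan. Work in V := Ideal (𝓞 F) →₀ ZMod p (a ZMod p-vector space; ZMod p is a field via Fact p.Prime). For y : 𝓞 F let dv y : V := ((normalizedFactors (Ideal.span {y})).map (fun v => Finsupp.single v (1 : ZMod p))).sum. Call y GOOD if y ≠ 0 ∧ ∀ w ∈ R, y ∉ w ∧ ∃ c, y - c^p ∈ w. Let 𝒦 := Submodule.span (ZMod p) ({t | ∃ v, (¬(v.IsPrime ∧ v ≠ ⊥ ∧ v ∉ R) ∨ SplitsCompletely F N v) ∧ t = Finsupp.single v 1} ∪ {t | ∃ y, GOOD y ∧ t = dv y}).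
(I) If 𝒦 ≠ ⊤: `Submodule.exists_le_ker_of_lt_top` gives a linear φ ≠ 0 with 𝒦 ≤ ker φ. Put e v := φ (Finsupp.single v 1). Then: some e v ≠ 0 (else φ = 0 by `Finsupp.lhom_ext`), and that v is prime, ≠ ⊥, ∉ R (else single v 1 ∈ 𝒦); e q = 0 for split q; principalSum F e y = φ (dv y) (`map_multiset_sum`, `Multiset.map_map`; principalSum is `((normalizedFactors (Ideal.span {y})).map e).sum`) = 0 for GOOD y. This is the conclusion.
(II) 𝒦 = ⊤ leads to False. Let NS := {u | u.IsPrime ∧ u ≠ ⊥ ∧ u ∉ R ∧ ¬ SplitsCompletely F N u}.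
 (c1) ∀ t ∈ 𝒦, ∃ x : Fˣ, (∀ w ∈ R, IsPthRes F p w x) ∧ ∀ u ∈ NS, ((ord F u (x:F) : ℤ) : ZMod p) = t u. By `Submodule.span_induction`: generator single v 1 (v ∉ NS): x = 1; generator dv y: x = y (`isPthRes_algebraMap_iff`, `ord_algebraMap`, and (dv y) u = (count u (normalizedFactors ..) : ZMod p) by Multiset induction); zero: 1; add: product (`ord_mul`, `IsPthRes.mul`); smul c: x ^ c.val (`ord_pow`, `IsPthRes.pow`, `ZMod.natCast_zmod_val`). Hence for every u ∈ NS there is zz u : Fˣ, a residue at all w ∈ R, with ord_{u'} (zz u) ≡ [u' = u] mod p for all u' ∈ NS.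
 (c2) `exists_classGen F R` gives a Finset S₀ of nonzero primes ∉ R with ClassGen F ↑S₀. CLEANING LEMMA (M1): if x : Fˣ has ord F w x = 0 for all w ∈ R and (p:ℤ) ∣ ord F u x for all u ∈ NS with u ∉ S₀, then ∃ d : Fˣ and a Finset T of ideals with: every v ∈ T is prime, ≠ ⊥, ∉ R, SplitsCompletely F N v; ord F w d = 0 for w ∈ R; x * d^p ∈ SUnits F (↑S₀ ∪ ↑T). Proof: a v := -(ord F v x)/p if v ∈ NS ∧ v ∉ S₀, else 0 (finite support by `finite_ord_ne_zero`); `ClassGen.exists_ord_eq` gives d with ord F v d = a v for all nonzero primes v ∉ S₀; T := the finite set of nonzero primes v ∉ R, ∉ S₀, split, with ord F v x ≠ 0; check with `mem_SUnits_iff`, `ord_mul`, `ord_pow` (v ∈ R: 0 + p*0; v ∈ NS \ S₀: ord x + p*(-(ord x)/p) = 0; v split ∉ T: ord x = 0 and a v = 0).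
 Note d^p is a residue at each w ∈ R (`isPthRes_pow_self`), so x * d^p has the same residue behaviour as x at R (`IsPthRes.mul`, `.div`), and ord_u (x d^p) ≡ ord_u x mod p.
 (c3) I₀ := nonsplit elements of S₀, Rr := R.filter (IsRam F N ·) (classical decidability). For v ∈ I₀: z' v := zz v * (d_v)^p, cleaned (hypotheses: residues at R have ord 0 by `IsPthRes.ord_eq_zero`; for u ∈ NS, u ∉ S₀: u ≠ v so p ∣ ord_u (zz v)). For w ∈ Rr: x0 from `exists_nonres F p hζ R hR hw` (integer, nonzero, ∉ w' for w' ∈ R, non-residue at w, residue at the other w'); x1 := x0 * ∏_{u ∈ P} (zz u)^(-(ord F u x0)) (zpow) where P := finite set of u ∈ NS with ord F u x0 ≠ 0; then p ∣ ord_{u'} x1 for ALL u' ∈ NS, x1 is still a non-residue at w (else x0 = x1 * ∏ (zz u)^(ord) would be a residue) and a residue at the other w' ∈ R, ord at R is 0; clean: x' w := x1 * (d_w)^p.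
 (c4) S := S₀ ∪ (⋃_{v ∈ I₀} T_v) ∪ (⋃_{w ∈ Rr} T_w) (Finset.biUnion; obtain the data by `choose`/Classical.choice, define functions on all ideals using `if h : v ∈ I₀ then .. else 1`). Elements of S: prime, ≠ ⊥, ∉ R. ClassGen F ↑S by `classGen_mono`. I := S.filter (¬ SplitsCompletely F N ·): then v ∈ I ⇒ v ∈ I₀ (the T's are split). SUnits is monotone in the set (via `mem_SUnits_iff`). Apply `key hp hζ hdeg R (hR without the p-part) hram S hS hgen I hI Rr hRr z' x'` and check its 8 hypotheses: hz1 from ord_v(zz v) ≡ 1 (`ZMod.intCast_eq_intCast_iff_dvd_sub` / `ZMod.intCast_zmod_eq_zero_iff_dvd` style lemmas; grep `intCast_cast`, `intCast_eq_intCast_iff`), hz1' from ≡ 0 at v' ≠ v in I ⊆ NS, hz2 (residue at all w ∈ Rr ⊆ R), hx1 (p ∣ ord_u x' for u ∈ I ⊆ NS), hx2, hx3. `key` returns False.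

-/
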